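import Fermat.Prelude.Def_GroupCohomology_ContinuousUnramified
import Fermat.Agent.S14.TransCore

/-!
# S55/S56 bridge, piece (E3): finite Galois levels unramified outside `S`

* conjugation of inertia groups of valuation subrings of `ℚ̄`;
* the normal closure of a field unramified outside `S` is unramified outside `S`;
* `S`-level-constant cochains are constant modulo `Gal(ℚ̄/F)` for a finite *Galois* `F/ℚ`
  unramified outside `S` (which may be taken to contain any given such field);
* a finite-dimensional representation with open stabilisers, unramified outside `S`, is trivial on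
  `Gal(ℚ̄/F₀)` for a finite Galois `F₀/ℚ` unramified outside `S` (its kernel field).
-/

set_option autoImplicit false
set_option linter.style.haveILetI false

open CategoryTheory Module groupCohomology ExtCitation
open scoped Pointwise
open Fermat.Agent.S54.FrobExists

namespace Fermat.Agent.S55

local notation "Qb" => AlgebraicClosure ℚ
local notation "GQ" => (AlgebraicClosure ℚ ≃ₐ[ℚ] AlgebraicClosure ℚ)

section Conj

variable {K L : Type*} [Field K] [Field L] [Algebra K L]

theorem liesOverPrime_smul_iff (τ : L ≃ₐ[K] L) (A : ValuationSubring L) (q : ℕ) :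
    (τ • A).LiesOverPrime q ↔ A.LiesOverPrime q := by
  unfold ValuationSubring.LiesOverPrime
  rw [ValuationSubring.mem_nonunits_iff, ValuationSubring.mem_nonunits_iff,
    Fermat.Agent.S14.valuation_smul_lt_one_iff, map_natCast]

theorem mem_decompositionSubgroup_smul_iff (τ σ : L ≃ₐ[K] L) (A : ValuationSubring L) :
    σ ∈ (τ • A).decompositionSubgroup K ↔ τ⁻¹ * σ * τ ∈ A.decompositionSubgroup K := by
  show σ • τ • A = τ • A ↔ (τ⁻¹ * σ * τ) • A = A
  rw [mul_smul, mul_smul, inv_smul_eq_iff]

theorem mem_inertiaSubgroupIn_smul_iff (τ σ : L ≃ₐ[K] L) (A : ValuationSubring L) :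
    σ ∈ (τ • A).inertiaSubgroupIn K ↔ τ⁻¹ * σ * τ ∈ A.inertiaSubgroupIn K := by
  rw [Fermat.Agent.S14.mem_inertiaSubgroupIn_iff, Fermat.Agent.S14.mem_inertiaSubgroupIn_iff,
    mem_decompositionSubgroup_smul_iff]
  refine and_congr_right fun _ => ⟨fun h y hy => ?_, fun h x hx => ?_⟩
  · have hx : τ y ∈ τ • A := by
      rw [ValuationSubring.mem_pointwise_smul_iff_inv_smul_mem]
      show τ⁻¹ (τ y) ∈ A
      simpa using hy
    have := h (τ y) hx
    rw [Fermat.Agent.S14.valuation_smul_lt_one_iff] at this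
    have e : τ⁻¹ (σ (τ y) - τ y) = (τ⁻¹ * σ * τ) y - y := by
      rw [map_sub]
      simp [AlgEquiv.mul_apply]
    rwa [e] at this
  · rw [ValuationSubring.mem_pointwise_smul_iff_inv_smul_mem] at hx
    have := h (τ⁻¹ x) hx
    rw [Fermat.Agent.S14.valuation_smul_lt_one_iff]
    have e : τ⁻¹ (σ x - x) = (τ⁻¹ * σ * τ) (τ⁻¹ x) - τ⁻¹ x := by
      rw [map_sub]
      simp [AlgEquiv.mul_apply]
    rwa [e]

end Conj

section NormalClosure

local instance instIsAlgClosureQb : IsAlgClosure ℚ Qb := AlgebraicClosure.instIsAlgClosure ℚ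
local instance instNormalQb : Normal ℚ Qb := IsAlgClosure.normal ℚ Qb

/-- The normal closure of a field unramified outside `S` is unramified outside `S`. -/
theorem isUnramifiedOutside_normalClosure {S : Finset Nat.Primes}
    {F : IntermediateField ℚ Qb} (hF : F.IsUnramifiedOutside S) :
    (IntermediateField.normalClosure ℚ F Qb).IsUnramifiedOutside S := by
  haveI := hF.1
  refine ⟨inferInstance, fun q hq A hA σ hσ => ?_⟩
  rw [IntermediateField.mem_fixingSubgroup_iff]
  -- it suffices to treat the conjugates of `F`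
  suffices h : IntermediateField.normalClosure ℚ F Qb ≤
      IntermediateField.fixedField (Subgroup.zpowers σ) by
    intro x hx
    have := h hx
    rw [IntermediateField.mem_fixedField_iff] at this
    exact this σ (Subgroup.mem_zpowers σ)
  refine (IntermediateField.normalClosure_def'' F).le.trans ?_
  refine iSup_le fun τ => ?_
  rintro _ ⟨x, hx, rfl⟩
  rw [IntermediateField.mem_fixedField_iff]
  -- `σ` fixes `τ x` as soon as `τ⁻¹ σ τ` fixes `x`
  have key : ∀ ρ : GQ, ρ ∈ Subgroup.zpowers σ → ρ (τ x) = τ x := by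
    intro ρ hρ
    obtain ⟨n, rfl⟩ := Subgroup.mem_zpowers_iff.1 hρ
    have hσ' : τ⁻¹ * σ * τ ∈ (τ⁻¹ • A).inertiaSubgroupIn ℚ := by
      rw [mem_inertiaSubgroupIn_smul_iff]
      simpa [mul_assoc] using hσ
    have hA' : (τ⁻¹ • A).LiesOverPrime (q : ℕ) := (liesOverPrime_smul_iff _ _ _).2 hA
    have hfix := hF.2 q hq (τ⁻¹ • A) hA' hσ'
    have hfixn : (τ⁻¹ * σ * τ) ^ n ∈ F.fixingSubgroup := Subgroup.zpow_mem _ hfix n
    have e : (τ⁻¹ * σ * τ) ^ n = τ⁻¹ * σ ^ n * τ := by
      have := conj_zpow (a := τ⁻¹) (b := σ) (i := n)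
      rwa [inv_inv] at this
    rw [e, IntermediateField.mem_fixingSubgroup_iff] at hfixn
    have := hfixn x hx
    have h2 : τ ((τ⁻¹ * σ ^ n * τ) x) = τ x := congrArg τ this
    simpa [AlgEquiv.mul_apply] using h2
  intro ρ hρ
  exact key ρ hρ

/-- `IsGalois` for the default `ℚ`-algebra instance on an intermediate field, from normality for
the intermediate-field algebra instance. -/
theorem isGalois_of_normal (E : IntermediateField ℚ Qb)
    (h : @Normal ℚ E _ _ E.algebra') : IsGalois ℚ E := by
  have e : (DivisionRing.toRatAlgebra : Algebra ℚ ↥E) = E.algebra' := Subsingleton.elim _ _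
  rw [e]
  exact { to_normal := h }

/-- Any two fields unramified outside `S` are contained in a finite Galois extension of `ℚ`
unramified outside `S`. -/
theorem exists_isGalois_isUnramifiedOutside_ge {S : Finset Nat.Primes}
    {F F' : IntermediateField ℚ Qb} (hF : F.IsUnramifiedOutside S)
    (hF' : F'.IsUnramifiedOutside S) :
    ∃ E : IntermediateField ℚ Qb, F ≤ E ∧ F' ≤ E ∧ E.IsUnramifiedOutside S ∧ IsGalois ℚ E := by
  refine ⟨IntermediateField.normalClosure ℚ (F ⊔ F' : IntermediateField ℚ Qb) Qb, ?_, ?_,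
    isUnramifiedOutside_normalClosure (hF.sup hF'), ?_⟩
  · exact le_sup_left.trans (IntermediateField.le_normalClosure _)
  · exact le_sup_right.trans (IntermediateField.le_normalClosure _)
  · exact isGalois_of_normal _ inferInstance

/-- An `S`-level-constant 1-cochain is constant modulo `Gal(ℚ̄/E)` for a finite Galois `E/ℚ`
unramified outside `S` containing any prescribed such field. -/
theorem exists_isGalois_of_isLevelConstantS₁ {S : Finset Nat.Primes} {X : Type*} {f : GQ → X}
    (hf : IsLevelConstantS₁ S f) {F₀ : IntermediateField ℚ Qb} (hF₀ : F₀.IsUnramifiedOutside S) :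
    ∃ E : IntermediateField ℚ Qb, F₀ ≤ E ∧ E.IsUnramifiedOutside S ∧ IsGalois ℚ E ∧
      ∀ g s, s ∈ E.fixingSubgroup → f (g * s) = f g := by
  obtain ⟨F, hF, h⟩ := hf
  obtain ⟨E, hFE, hF₀E, hE, hgal⟩ := exists_isGalois_isUnramifiedOutside_ge hF hF₀
  exact ⟨E, hF₀E, hE, hgal, fun g s hs => h g s (IntermediateField.fixingSubgroup_antitone hFE hs)⟩

/-- An `S`-level-constant 2-cochain is constant modulo `Gal(ℚ̄/E)` for a finite Galois `E/ℚ`
unramified outside `S` containing any prescribed such field. -/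
theorem exists_isGalois_of_isLevelConstantS₂ {S : Finset Nat.Primes} {X : Type*}
    {f : GQ × GQ → X}
    (hf : IsLevelConstantS₂ S f) {F₀ : IntermediateField ℚ Qb} (hF₀ : F₀.IsUnramifiedOutside S) :
    ∃ E : IntermediateField ℚ Qb, F₀ ≤ E ∧ E.IsUnramifiedOutside S ∧ IsGalois ℚ E ∧
      ∀ g g' s s', s ∈ E.fixingSubgroup → s' ∈ E.fixingSubgroup → f (g * s, g' * s') = f (g, g') := by
  obtain ⟨F, hF, h⟩ := hf
  obtain ⟨E, hFE, hF₀E, hE, hgal⟩ := exists_isGalois_isUnramifiedOutside_ge hF hF₀
  exact ⟨E, hF₀E, hE, hgal, fun g g' s s' hs hs' => h g g' s s'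
    (IntermediateField.fixingSubgroup_antitone hFE hs)
    (IntermediateField.fixingSubgroup_antitone hFE hs')⟩

end NormalClosure

section KerField

local instance instIsAlgClosureQb' : IsAlgClosure ℚ Qb := AlgebraicClosure.instIsAlgClosure ℚ
local instance instIsGaloisQb' : IsGalois ℚ Qb := isGalois_rat_algebraicClosure

variable {k : Type} [Field k] (M : Rep k GQ)

/-- A finite-dimensional representation of `G_ℚ` with open stabilisers is trivial on an open
subgroup. -/
theorem exists_finiteDimensional_forall_rho_eq_one [FiniteDimensional k M]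
    (hsm : ∀ m : M, ∃ F : IntermediateField ℚ Qb, FiniteDimensional ℚ F ∧
      ∀ s ∈ F.fixingSubgroup, M.ρ s m = m) :
    ∃ F : IntermediateField ℚ Qb, FiniteDimensional ℚ F ∧ ∀ s ∈ F.fixingSubgroup, M.ρ s = 1 := by
  classical
  let b := Module.finBasis k M
  choose F hFfd hF using fun i => hsm (b i)
  refine ⟨⨆ i, F i, ?_, fun s hs => ?_⟩
  · haveI := hFfd
    exact IntermediateField.finiteDimensional_iSup_of_finite
  · refine b.ext fun i => ?_
    rw [Module.End.one_apply]
    exact hF i s (IntermediateField.fixingSubgroup_antitone (le_iSup F i) hs)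

/-- **Kernel field**: a finite-dimensional representation with open stabilisers which is
unramified outside `S` is trivial on `Gal(ℚ̄/F)` for a finite Galois extension `F/ℚ` unramified
outside `S`. -/
theorem exists_isGalois_isUnramifiedOutside_forall_rho_eq_one [FiniteDimensional k M]
    (S : Finset Nat.Primes)
    (hsm : ∀ m : M, ∃ F : IntermediateField ℚ Qb, FiniteDimensional ℚ F ∧
      ∀ s ∈ F.fixingSubgroup, M.ρ s m = m)
    (hMur : ∀ q : Nat.Primes, q ∉ S → ∀ A : ValuationSubring Qb,
      A.LiesOverPrime (q : ℕ) → ∀ g ∈ A.inertiaSubgroupIn ℚ, M.ρ g = 1) :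
    ∃ F : IntermediateField ℚ Qb, F.IsUnramifiedOutside S ∧ IsGalois ℚ F ∧
      ∀ s ∈ F.fixingSubgroup, M.ρ s = 1 := by
  obtain ⟨F₁, hF₁fd, hF₁⟩ := exists_finiteDimensional_forall_rho_eq_one M hsm
  let N : Subgroup GQ := MonoidHom.ker M.ρ
  have hN : ∀ s, s ∈ N ↔ M.ρ s = 1 := fun s => MonoidHom.mem_ker
  have hle : F₁.fixingSubgroup ≤ N := fun s hs => (hN s).2 (hF₁ s hs)
  have hopen : IsOpen (N : Set GQ) :=
    Subgroup.isOpen_mono hle ((InfiniteGalois.isOpen_iff_finite F₁).2 hF₁fd)
  let Nc : ClosedSubgroup GQ := ⟨N, Subgroup.isClosed_of_isOpen N hopen⟩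
  let E : IntermediateField ℚ Qb := IntermediateField.fixedField N
  have hfix : E.fixingSubgroup = N := InfiniteGalois.fixingSubgroup_fixedField Nc
  have hfd : FiniteDimensional ℚ E := by
    rw [← InfiniteGalois.isOpen_iff_finite, hfix]
    exact hopen
  have hgal : IsGalois ℚ E := by
    have h' : @IsGalois ℚ _ E _ E.algebra' := by
      rw [← InfiniteGalois.normal_iff_isGalois, hfix]
      exact MonoidHom.normal_ker _
    exact isGalois_of_normal E h'.to_normal
  refine ⟨E, ⟨hfd, fun q hq A hA σ hσ => ?_⟩, hgal, fun s hs => ?_⟩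
  · rw [hfix]
    exact (hN σ).2 (hMur q hq A hA σ hσ)
  · rw [hfix] at hs
    exact (hN s).1 hs

end KerField

end Fermat.Agent.S55
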