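import Fermat.Agent.S55.LocalImage

/-!
# S55 bridge: the local tower `K_F = ℚ_q(ι F)`

For a finite extension `F/ℚ` inside `ℚ̄`, the compositum `K_F = ℚ_q(ι F) ⊆ ℚ̄_q = PadicAlgCl q`
(`ι = padicEmbedding q`) is a finite extension of `ℚ_q`, Galois if `F/ℚ` is normal, and the
subgroup of `G_{ℚ_q}` fixing `K_F` is the preimage of `Gal(ℚ̄/F)` under `localGaloisToGlobal q`.
Hence the finite quotients of the Prelude's local level group are the groups `Gal(K_F/ℚ_q)`; they
embed in `Gal(F/ℚ)` with image the decomposition group.
-/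

set_option autoImplicit false
set_option linter.style.haveILetI false

open scoped NNReal Pointwise
open Polynomial

namespace Fermat.Agent.S55

local notation "Qb" => AlgebraicClosure ℚ
local notation "GQ" => (AlgebraicClosure ℚ ≃ₐ[ℚ] AlgebraicClosure ℚ)

variable (q : ℕ) [hq : Fact q.Prime]

local notation "Gq" => (PadicAlgCl q ≃ₐ[ℚ_[q]] PadicAlgCl q)

/-- The local field `K_F = ℚ_q(ι F)` attached to a subfield `F` of `ℚ̄`. -/
noncomputable def localField (F : IntermediateField ℚ Qb) :
    IntermediateField ℚ_[q] (PadicAlgCl q) :=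
  IntermediateField.adjoin ℚ_[q] (padicEmbedding q '' (F : Set Qb))

theorem padicEmbedding_mem_localField {F : IntermediateField ℚ Qb} {x : Qb} (hx : x ∈ F) :
    padicEmbedding q x ∈ localField q F :=
  IntermediateField.subset_adjoin _ _ ⟨x, hx, rfl⟩

theorem localField_mono {F F' : IntermediateField ℚ Qb} (h : F ≤ F') :
    localField q F ≤ localField q F' :=
  IntermediateField.adjoin.mono _ _ _ (Set.image_mono h)

/-- `τ` fixes `K_F` iff its image in `G_ℚ` fixes `F`. -/
theorem mem_fixingSubgroup_localField_iff (F : IntermediateField ℚ Qb) (τ : Gq) :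
    τ ∈ (localField q F).fixingSubgroup ↔ localGaloisToGlobal q τ ∈ F.fixingSubgroup := by
  rw [IntermediateField.mem_fixingSubgroup_iff, IntermediateField.mem_fixingSubgroup_iff]
  constructor
  · intro h x hx
    apply (padicEmbedding q).toRingHom.injective
    show padicEmbedding q _ = padicEmbedding q _
    rw [padicEmbedding_localGaloisToGlobal]
    exact h _ (padicEmbedding_mem_localField q hx)
  · intro h y hy
    induction hy using IntermediateField.adjoin_induction with
    | mem y hy =>
      obtain ⟨x, hx, rfl⟩ := hy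
      rw [← padicEmbedding_localGaloisToGlobal, h x hx]
    | algebraMap r => exact τ.commutes r
    | add y z _ _ hy hz => rw [map_add, hy, hz]
    | inv y _ hy => rw [map_inv₀, hy]
    | mul y z _ _ hy hz => rw [map_mul, hy, hz]

theorem fixingSubgroup_localField (F : IntermediateField ℚ Qb) :
    (localField q F).fixingSubgroup = F.fixingSubgroup.comap (localGaloisToGlobal q) := by
  ext τ
  rw [mem_fixingSubgroup_localField_iff, Subgroup.mem_comap]

/-- `K_{ℚ(a)} = ℚ_q(ι a)`. -/
theorem localField_adjoin_simple (a : Qb) :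
    localField q (IntermediateField.adjoin ℚ {a}) =
      IntermediateField.adjoin ℚ_[q] {padicEmbedding q a} := by
  apply le_antisymm
  · rw [localField, IntermediateField.adjoin_le_iff]
    rintro _ ⟨x, hx, rfl⟩
    rw [SetLike.mem_coe] at hx ⊢
    induction hx using IntermediateField.adjoin_induction with
    | mem y hy =>
      have : y = a := hy
      rw [this]
      exact IntermediateField.mem_adjoin_simple_self _ _
    | algebraMap r =>
      have : padicEmbedding q (algebraMap ℚ Qb r) =
          algebraMap ℚ_[q] (PadicAlgCl q) (r : ℚ_[q]) := by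
        rw [AlgHom.commutes, eq_ratCast, map_ratCast]
      rw [this]
      exact IntermediateField.algebraMap_mem _ _
    | add y z _ _ hy hz => rw [map_add]; exact add_mem hy hz
    | inv y _ hy => rw [map_inv₀]; exact inv_mem hy
    | mul y z _ _ hy hz => rw [map_mul]; exact mul_mem hy hz
  · rw [IntermediateField.adjoin_le_iff]
    intro y hy
    have : y = padicEmbedding q a := hy
    rw [this]
    exact padicEmbedding_mem_localField q (IntermediateField.mem_adjoin_simple_self _ _)

/-- `K_F/ℚ_q` is finite when `F/ℚ` is. -/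
theorem finiteDimensional_localField (F : IntermediateField ℚ Qb) [FiniteDimensional ℚ F] :
    FiniteDimensional ℚ_[q] (localField q F) := by
  obtain ⟨a, rfl⟩ := exists_eq_adjoin_simple F
  rw [localField_adjoin_simple]
  exact IntermediateField.adjoin.finiteDimensional
    (Algebra.IsIntegral.isIntegral (padicEmbedding q a))

/-- A subfield of `ℚ̄` which is Galois over `ℚ` (for the default `ℚ`-algebra structure) is stable
under `G_ℚ`. -/
theorem apply_mem_of_isGalois (E : IntermediateField ℚ Qb) (h : IsGalois ℚ E) (σ : GQ) {x : Qb}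
    (hx : x ∈ E) : σ x ∈ E := by
  have key : ∀ (inst : Algebra ℚ ↥E), inst = E.algebra' →
      @IsGalois ℚ _ E _ inst → σ x ∈ E := by
    rintro _ rfl hgal
    haveI : IsAlgClosure ℚ Qb := AlgebraicClosure.instIsAlgClosure ℚ
    haveI : Normal ℚ Qb := IsAlgClosure.normal ℚ Qb
    haveI : Normal ℚ E := hgal.to_normal
    have := (IntermediateField.normal_iff_forall_map_le' (K := E)).1 inferInstance σ
    exact this ⟨x, hx, rfl⟩
  exact key _ (Subsingleton.elim _ _) h

/-- `K_F/ℚ_q` is normal as soon as `F` is stable under `G_ℚ`. -/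
theorem normal_localField (F : IntermediateField ℚ Qb)
    (hF : ∀ σ : GQ, ∀ x ∈ F, σ x ∈ F) : Normal ℚ_[q] (localField q F) := by
  rw [IntermediateField.normal_iff_forall_map_le']
  intro τ
  rw [localField, IntermediateField.adjoin_map, IntermediateField.adjoin_le_iff]
  rintro _ ⟨_, ⟨x, hx, rfl⟩, rfl⟩
  show τ (padicEmbedding q x) ∈ _
  rw [← padicEmbedding_localGaloisToGlobal]
  exact padicEmbedding_mem_localField q (hF _ x hx)

/-- `K_F/ℚ_q` is Galois when `F/ℚ` is. -/
theorem isGalois_localField (F : IntermediateField ℚ Qb) (h : IsGalois ℚ F) :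
    IsGalois ℚ_[q] (localField q F) :=
  haveI := normal_localField q F fun σ _ hx => apply_mem_of_isGalois F h σ hx
  ⟨⟩

section Quotient

variable (F : IntermediateField ℚ Qb) [Normal ℚ F]

/-- The composite `G_{ℚ_q} → G_ℚ → Gal(F/ℚ)`. -/
noncomputable def localToGal : Gq →* (F ≃ₐ[ℚ] F) :=
  (AlgEquiv.restrictNormalHom F).comp (localGaloisToGlobal q)

theorem localToGal_apply (τ : Gq) (x : F) :
    ((localToGal q F τ x : F) : Qb) = localGaloisToGlobal q τ x :=
  AlgEquiv.restrictNormal_commutes _ F x

/-- The kernel of `G_{ℚ_q} → Gal(F/ℚ)` is the subgroup fixing `K_F`. -/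
theorem ker_localToGal : (localToGal q F).ker = (localField q F).fixingSubgroup := by
  ext τ
  rw [MonoidHom.mem_ker, mem_fixingSubgroup_localField_iff,
    IntermediateField.mem_fixingSubgroup_iff]
  constructor
  · intro h x hx
    have := localToGal_apply q F τ ⟨x, hx⟩
    rw [h] at this
    exact this.symm
  · intro h
    ext x
    rw [localToGal_apply]
    exact h x x.2

/-- The image of `G_{ℚ_q} → Gal(F/ℚ)` is the image of the decomposition group of
`padicPlace q` (for `F/ℚ` finite). -/
theorem range_localToGal [FiniteDimensional ℚ F] :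
    (localToGal q F).range =
      ((padicPlace q).decompositionSubgroup ℚ).map (AlgEquiv.restrictNormalHom F) := by
  ext γ
  constructor
  · rintro ⟨τ, rfl⟩
    exact ⟨localGaloisToGlobal q τ, localGaloisToGlobal_mem_decompositionSubgroup q τ, rfl⟩
  · rintro ⟨σ, hσ, rfl⟩
    obtain ⟨τ, hτ⟩ := exists_localGaloisToGlobal_eq_on q hσ F
    refine ⟨τ, ?_⟩
    ext x
    rw [localToGal_apply, hτ x x.2]
    exact (AlgEquiv.restrictNormal_commutes σ F x).symm

end Quotient

end Fermat.Agent.S55
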