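import Fermat.Agent.CFT.LC.Cochains
import Fermat.Agent.S55.TrivField

/-!
# S55 bridge (D5a), global part: the Prelude's `S`-level-constant cochains are the LC cochains of
the level structure `globalLevel S` on `G_ℚ`
-/

set_option autoImplicit false
set_option linter.style.haveILetI false

open CategoryTheory Module groupCohomology ExtCitation
open Fermat.Agent.CFT Fermat.Agent.S54.FrobExists

namespace Fermat.Agent.S55

local notation "Qb" => AlgebraicClosure ℚ
local notation "GQ" => (AlgebraicClosure ℚ ≃ₐ[ℚ] AlgebraicClosure ℚ)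

section Levels

local instance instIsAlgClosureQbLC : IsAlgClosure ℚ Qb := AlgebraicClosure.instIsAlgClosure ℚ
local instance instIsGaloisQbLC : IsGalois ℚ Qb := isGalois_rat_algebraicClosure

/-- The fixing subgroup of a finite Galois subextension is normal. -/
theorem normal_fixingSubgroup_of_isGalois (F : IntermediateField ℚ Qb) (hF : IsGalois ℚ F) :
    F.fixingSubgroup.Normal := by
  rw [InfiniteGalois.normal_iff_isGalois]
  have e : (DivisionRing.toRatAlgebra : Algebra ℚ ↥F) = F.algebra' := Subsingleton.elim _ _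
  rw [← e]
  exact hF

/-- The fixing subgroup of a finite subextension has finite index. -/
theorem finiteIndex_fixingSubgroup (F : IntermediateField ℚ Qb) [FiniteDimensional ℚ F] :
    F.fixingSubgroup.FiniteIndex := by
  have hopen : IsOpen (F.fixingSubgroup : Set GQ) := F.fixingSubgroup_isOpen
  have : Finite (GQ ⧸ F.fixingSubgroup) := Subgroup.quotient_finite_of_isOpen _ hopen
  exact Subgroup.finiteIndex_of_finite_quotient

/-- The level structure on `G_ℚ` whose levels are the `Gal(ℚ̄/F)`, `F/ℚ` finite Galois and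
unramified outside `S`. -/
def globalLevel (S : Finset Nat.Primes) : LevelStructure GQ where
  IsLevel N := ∃ F : IntermediateField ℚ Qb, IsGalois ℚ F ∧ F.IsUnramifiedOutside S ∧
    N = F.fixingSubgroup
  normal := by
    rintro _ ⟨F, hgal, -, rfl⟩
    exact normal_fixingSubgroup_of_isGalois F hgal
  finiteIndex := by
    rintro _ ⟨F, -, hF, rfl⟩
    haveI := hF.1
    exact finiteIndex_fixingSubgroup F
  exists_level := by
    obtain ⟨E, -, -, hE, hgal⟩ := exists_isGalois_isUnramifiedOutside_ge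
      (IntermediateField.isUnramifiedOutside_bot S) (IntermediateField.isUnramifiedOutside_bot S)
    exact ⟨_, E, hgal, hE, rfl⟩
  directed := by
    rintro _ _ ⟨F, -, hF, rfl⟩ ⟨F', -, hF', rfl⟩
    obtain ⟨E, hFE, hF'E, hE, hgal⟩ := exists_isGalois_isUnramifiedOutside_ge hF hF'
    exact ⟨_, ⟨E, hgal, hE, rfl⟩, le_inf (IntermediateField.fixingSubgroup_antitone hFE)
      (IntermediateField.fixingSubgroup_antitone hF'E)⟩

/-- The level structure on `G_ℚ` whose levels are all `Gal(ℚ̄/F)`, `F/ℚ` finite Galois. -/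
def fullLevel : LevelStructure GQ where
  IsLevel N := ∃ F : IntermediateField ℚ Qb, IsGalois ℚ F ∧ FiniteDimensional ℚ F ∧
    N = F.fixingSubgroup
  normal := by
    rintro _ ⟨F, hgal, -, rfl⟩
    exact normal_fixingSubgroup_of_isGalois F hgal
  finiteIndex := by
    rintro _ ⟨F, -, hF, rfl⟩
    haveI := hF
    exact finiteIndex_fixingSubgroup F
  exists_level := by
    refine ⟨_, IntermediateField.normalClosure ℚ (⊥ : IntermediateField ℚ Qb) Qb,
      isGalois_of_normal _ inferInstance, inferInstance, rfl⟩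
  directed := by
    rintro _ _ ⟨F, -, hF, rfl⟩ ⟨F', -, hF', rfl⟩
    haveI := hF
    haveI := hF'
    refine ⟨_, ⟨IntermediateField.normalClosure ℚ (F ⊔ F' : IntermediateField ℚ Qb) Qb,
      isGalois_of_normal _ inferInstance, inferInstance, rfl⟩, le_inf ?_ ?_⟩
    · exact IntermediateField.fixingSubgroup_antitone
        (le_sup_left.trans (IntermediateField.le_normalClosure _))
    · exact IntermediateField.fixingSubgroup_antitone
        (le_sup_right.trans (IntermediateField.le_normalClosure _))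

end Levels

section LC

variable {S : Finset Nat.Primes}

/-- (c₁) The Prelude's `S`-level-constant `1`-cochains are the LC `1`-cochains of `globalLevel S`. -/
theorem isLevelConstantS₁_iff {X : Type*} (f : GQ → X) :
    IsLevelConstantS₁ S f ↔ (globalLevel S).IsLC₁ f := by
  constructor
  · intro hf
    obtain ⟨E, -, hE, hgal, h⟩ := exists_isGalois_of_isLevelConstantS₁ hf
      (IntermediateField.isUnramifiedOutside_bot S)
    exact ⟨_, ⟨E, hgal, hE, rfl⟩, fun g s hs => h g s hs⟩
  · rintro ⟨_, ⟨F, -, hF, rfl⟩, h⟩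
    exact ⟨F, hF, fun g s hs => h g s hs⟩

/-- (c₂) The Prelude's `S`-level-constant `2`-cochains are the LC `2`-cochains of `globalLevel S`. -/
theorem isLevelConstantS₂_iff {X : Type*} (f : GQ × GQ → X) :
    IsLevelConstantS₂ S f ↔ (globalLevel S).IsLC₂ f := by
  constructor
  · intro hf
    obtain ⟨E, -, hE, hgal, h⟩ := exists_isGalois_of_isLevelConstantS₂ hf
      (IntermediateField.isUnramifiedOutside_bot S)
    exact ⟨_, ⟨E, hgal, hE, rfl⟩, fun g g' s hs s' hs' => h g g' s s' hs hs'⟩
  · rintro ⟨_, ⟨F, -, hF, rfl⟩, h⟩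
    exact ⟨F, hF, fun g g' s s' hs hs' => h g g' s hs s' hs'⟩

variable {k : Type} [Field k] (M : Rep k GQ)

/-- (d) A finite-dimensional representation with open stabilisers, unramified outside `S`, is
smooth for `globalLevel S`. -/
theorem isSmooth_globalLevel [FiniteDimensional k M] (S : Finset Nat.Primes)
    (hsm : ∀ m : M, ∃ F : IntermediateField ℚ Qb, FiniteDimensional ℚ F ∧
      ∀ s ∈ F.fixingSubgroup, M.ρ s m = m)
    (hMur : ∀ q : Nat.Primes, q ∉ S → ∀ A : ValuationSubring Qb,
      A.LiesOverPrime (q : ℕ) → ∀ g ∈ A.inertiaSubgroupIn ℚ, M.ρ g = 1) :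
    IsSmooth (globalLevel S) M := by
  obtain ⟨F, hF, hgal, h⟩ := exists_isGalois_isUnramifiedOutside_forall_rho_eq_one M S hsm hMur
  intro a
  refine ⟨_, ⟨F, hgal, hF, rfl⟩, fun g hg => ?_⟩
  rw [h g hg, Module.End.one_apply]

/-- The Prelude's `S`-level cochains are the LC cochains. -/
theorem levelCochainsS₁_eq (S : Finset Nat.Primes) :
    levelCochainsS₁ S M = LC.C₁ (globalLevel S) M := by
  ext f
  exact isLevelConstantS₁_iff f

theorem levelCochainsS₂_eq (S : Finset Nat.Primes) :
    levelCochainsS₂ S M = LC.C₂ (globalLevel S) M := by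
  ext f
  exact isLevelConstantS₂_iff f

theorem levelCocyclesS₂_eq (S : Finset Nat.Primes) :
    levelCocyclesS₂ S M = LC.Z₂ (globalLevel S) M := by
  rw [levelCocyclesS₂, LC.Z₂, levelCochainsS₂_eq]

theorem levelCoboundariesS₂_eq (S : Finset Nat.Primes) :
    levelCoboundariesS₂ S M = LC.B₂ (globalLevel S) M := by
  rw [levelCoboundariesS₂, LC.B₂, levelCochainsS₁_eq]

/-- (e₂) The Prelude's `continuousH2S` is the level cohomology `LC.H2 (globalLevel S)`. -/
noncomputable def continuousH2SEquiv (S : Finset Nat.Primes) :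
    continuousH2S S M ≃ₗ[k] LC.H2 (globalLevel S) M :=
  Submodule.Quotient.equiv _ _ (LinearEquiv.ofEq _ _ (levelCocyclesS₂_eq M S)) (by
    ext x
    simp only [Submodule.mem_map, Submodule.mem_comap, Submodule.subtype_apply]
    constructor
    · rintro ⟨y, hy, rfl⟩
      rw [levelCoboundariesS₂_eq] at hy
      exact hy
    · intro hx
      refine ⟨(LinearEquiv.ofEq _ _ (levelCocyclesS₂_eq M S)).symm x, ?_,
        LinearEquiv.apply_symm_apply _ x⟩
      rw [levelCoboundariesS₂_eq]
      exact hx)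

@[simp]
theorem continuousH2SEquiv_mk (S : Finset Nat.Primes) (c : ↥(levelCocyclesS₂ S M)) :
    continuousH2SEquiv M S (continuousH2Sπ S M c) =
      LC.H2π (globalLevel S) M ⟨c.1, (levelCocyclesS₂_eq M S) ▸ c.2⟩ := rfl

/-! ### `H¹` -/

/-- LC `1`-cocycles as Mathlib `1`-cocycles. -/
noncomputable def lcZ₁ToCocycles₁ (L : LevelStructure GQ) : ↥(LC.Z₁ L M) →ₗ[k] ↥(cocycles₁ M) :=
  Submodule.inclusion inf_le_left

/-- The natural map from level cohomology to Mathlib's `H¹`. -/
noncomputable def lcH1ToH1 (L : LevelStructure GQ) : LC.H1 L M →ₗ[k] H1 M :=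
  Submodule.liftQ _ ((H1π M).hom ∘ₗ lcZ₁ToCocycles₁ M L) (by
    intro c hc
    rw [LinearMap.mem_ker, LinearMap.comp_apply]
    exact (H1π_eq_zero_iff _).2 hc)

@[simp]
theorem lcH1ToH1_mk (L : LevelStructure GQ) (c : ↥(LC.Z₁ L M)) :
    lcH1ToH1 M L (LC.H1π L M c) = (H1π M).hom (lcZ₁ToCocycles₁ M L c) := rfl

theorem lcH1ToH1_injective (L : LevelStructure GQ) : Function.Injective (lcH1ToH1 M L) := by
  rw [← LinearMap.ker_eq_bot, eq_bot_iff]
  intro x hx
  obtain ⟨c, rfl⟩ := Submodule.mkQ_surjective _ x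
  rw [LinearMap.mem_ker] at hx
  change (H1π M).hom (lcZ₁ToCocycles₁ M L c) = 0 at hx
  have h := (H1π_eq_zero_iff _).1 hx
  rw [Submodule.mem_bot]
  exact (LC.H1π_eq_zero_iff c).2 h

theorem range_lcH1ToH1 (S : Finset Nat.Primes) :
    LinearMap.range (lcH1ToH1 M (globalLevel S)) = continuousH1S S M := by
  ext x
  rw [mem_continuousH1S_iff]
  constructor
  · rintro ⟨y, rfl⟩
    obtain ⟨c, rfl⟩ := Submodule.mkQ_surjective _ y
    exact ⟨lcZ₁ToCocycles₁ M _ c, (isLevelConstantS₁_iff _).2 c.2.2, rfl⟩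
  · rintro ⟨c, hc, rfl⟩
    exact ⟨LC.H1π _ M ⟨c.1, c.2, (isLevelConstantS₁_iff _).1 hc⟩, rfl⟩

/-- (e₁) The Prelude's `continuousH1S` is the level cohomology `LC.H1 (globalLevel S)`. -/
noncomputable def continuousH1SEquiv (S : Finset Nat.Primes) :
    LC.H1 (globalLevel S) M ≃ₗ[k] continuousH1S S M :=
  (LinearEquiv.ofInjective _ (lcH1ToH1_injective M (globalLevel S))).trans
    (LinearEquiv.ofEq _ _ (range_lcH1ToH1 M S))

@[simp]
theorem coe_continuousH1SEquiv (S : Finset Nat.Primes) (x : LC.H1 (globalLevel S) M) :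
    (continuousH1SEquiv M S x : H1 M) = lcH1ToH1 M (globalLevel S) x := rfl

end LC

end Fermat.Agent.S55
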