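import Fermat.Prelude.Def_GroupCohomology_ContinuousUnramified
import Fermat.Agent.S14.TransCore
import Fermat.Agent.S14.AlgGQ

/-!
# S55/S56 bridge, piece (E4): the mod `p` cyclotomic character is unramified outside `p`, has open
kernel, and the Tate twist of the dual of a representation unramified outside `S ∋ p` with open
stabilisers again has these properties.
-/

set_option autoImplicit false
set_option linter.style.haveILetI false

open CategoryTheory Module groupCohomology ExtCitation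
open scoped Pointwise
open Fermat.Agent.S54.FrobExists

namespace Fermat.Agent.S55

local notation "Qb" => AlgebraicClosure ℚ
local notation "GQ" => (AlgebraicClosure ℚ ≃ₐ[ℚ] AlgebraicClosure ℚ)

variable (p : ℕ) [hp : Fact p.Prime]

theorem cycloChar_eq_chi : cycloChar p = Fermat.Agent.S14.AlgGQ.chi p :=
  MonoidHom.ext fun _ => rfl

/-- `χ(σ) = 1` iff `σ` fixes the `p`-th roots of unity. -/
theorem cycloChar_eq_one_iff (σ : GQ) :
    cycloChar p σ = 1 ↔ ∀ ζ : Qb, ζ ^ p = 1 → σ ζ = ζ := by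
  rw [cycloChar_eq_chi, ← Fermat.Agent.S14.AlgGQ.mem_ker_chi_iff, MonoidHom.mem_ker]

/-- The cyclotomic character is trivial on inertia groups above primes `ℓ ≠ p`. -/
theorem cycloChar_eq_one_of_mem_inertia {ℓ : ℕ} (hℓ : ℓ.Prime) (hℓp : ℓ ≠ p)
    (A : ValuationSubring Qb) (hA : A.LiesOverPrime ℓ) {σ : GQ}
    (hσ : σ ∈ A.inertiaSubgroupIn ℚ) : cycloChar p σ = 1 := by
  rw [cycloChar_eq_one_iff]
  intro ζ hζ
  by_contra hne
  have hp' : p.Prime := hp.out
  have hζ0 : ζ ≠ 0 := by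
    rintro rfl
    rw [zero_pow hp'.ne_zero] at hζ
    exact zero_ne_one hζ
  -- `ζ` and `σ ζ` are integral, hence in `A`
  have hint : ∀ x : Qb, x ^ p = 1 → IsIntegral ℤ x := fun x hx =>
    IsIntegral.of_pow hp'.pos (by rw [hx]; exact isIntegral_one)
  have hζA : ζ ∈ A := integral_mem_valuationSubring A (hint ζ hζ)
  have hζinvA : ζ⁻¹ ∈ A := by
    refine integral_mem_valuationSubring A (hint ζ⁻¹ ?_)
    rw [inv_pow, hζ, inv_one]
  have hvζ : A.valuation ζ = 1 := by
    have h1 : A.valuation ζ ≤ 1 := (A.valuation_le_one_iff ζ).2 hζA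
    have h2 : A.valuation ζ⁻¹ ≤ 1 := (A.valuation_le_one_iff ζ⁻¹).2 hζinvA
    rw [map_inv₀] at h2
    have h3 : 0 < A.valuation ζ := zero_lt_iff.mpr ((Valuation.ne_zero_iff _).mpr hζ0)
    exact le_antisymm h1 ((inv_le_one₀ h3).1 h2)
  have hlt : A.valuation (σ ζ - ζ) < 1 :=
    ((Fermat.Agent.S14.mem_inertiaSubgroupIn_iff A σ).1 hσ).2 ζ hζA
  -- `η = σ ζ / ζ` is a primitive `p`-th root of unity
  set η : Qb := σ ζ * ζ⁻¹ with hη
  have hηp : η ^ p = 1 := by
    rw [hη, mul_pow, ← map_pow, hζ, map_one, inv_pow, hζ, inv_one, mul_one]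
  have hη1 : η ≠ 1 := by
    intro h
    apply hne
    have : σ ζ * ζ⁻¹ * ζ = 1 * ζ := by rw [← hη, h]
    rwa [inv_mul_cancel_right₀ hζ0, one_mul] at this
  have hprim : IsPrimitiveRoot η p := by
    have hord : orderOf η = p := by
      have hdvd := orderOf_dvd_of_pow_eq_one hηp
      rcases (Nat.dvd_prime hp').1 hdvd with h | h
      · exact absurd (orderOf_eq_one_iff.1 h) hη1
      · exact h
    rw [← hord]
    exact IsPrimitiveRoot.orderOf η
  obtain ⟨z, hz, hpz⟩ := IsPrimitiveRoot.self_sub_one_pow_dvd_order (k := 1) hp'.one_lt hprim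
  have hzA : z ∈ A := by
    refine integral_mem_valuationSubring A ?_
    have hηint : IsIntegral ℤ η := hint η hηp
    exact IsIntegral.of_mem_of_fg _ (hηint.fg_adjoin_singleton) z hz
  have hvη : A.valuation (η - 1) < 1 := by
    have : η - 1 = (σ ζ - ζ) * ζ⁻¹ := by
      rw [hη, sub_mul, mul_inv_cancel₀ hζ0]
    rw [this, map_mul, map_inv₀, hvζ, inv_one, mul_one]
    exact hlt
  have hvp : A.valuation (p : Qb) < 1 := by
    rw [hpz, pow_one, map_mul]
    calc A.valuation z * A.valuation (η - 1) ≤ 1 * A.valuation (η - 1) :=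
          mul_le_mul_left ((A.valuation_le_one_iff z).2 hzA) _
      _ = A.valuation (η - 1) := one_mul _
      _ < 1 := hvη
  have hvℓ : A.valuation (ℓ : Qb) < 1 := (A.mem_nonunits_iff).mp hA
  -- Bézout
  have hcop : Nat.Coprime p ℓ := (Nat.coprime_primes hp' hℓ).2 (Ne.symm hℓp)
  have hbez : (1 : Qb) = (Nat.gcdA p ℓ : Qb) * (p : Qb) + (Nat.gcdB p ℓ : Qb) * (ℓ : Qb) := by
    have := Nat.gcd_eq_gcd_ab p ℓ
    rw [hcop] at this
    have h2 : ((1 : ℕ) : ℤ) = (p : ℤ) * Nat.gcdA p ℓ + (ℓ : ℤ) * Nat.gcdB p ℓ := this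
    have h3 := congrArg (Int.cast : ℤ → Qb) h2
    push_cast at h3
    rw [h3]; ring
  have hint' : ∀ n : ℤ, A.valuation (n : Qb) ≤ 1 := fun n =>
    (A.valuation_le_one_iff _).2 (intCast_mem_valuationSubring A n)
  have h1 : A.valuation (1 : Qb) < 1 := by
    rw [hbez]
    refine Valuation.map_add_lt _ ?_ ?_
    · rw [map_mul]
      calc _ ≤ 1 * A.valuation (p : Qb) := mul_le_mul_left (hint' _) _
        _ = _ := one_mul _
        _ < 1 := hvp
    · rw [map_mul]
      calc _ ≤ 1 * A.valuation (ℓ : Qb) := mul_le_mul_left (hint' _) _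
        _ = _ := one_mul _
        _ < 1 := hvℓ
  rw [map_one] at h1
  exact lt_irrefl _ h1

/-- The cyclotomic character is trivial on `Gal(ℚ̄/F)` for a finite extension `F/ℚ`
(namely `F = ℚ(ζ_p)`), which is unramified outside `p`. -/
theorem exists_isUnramifiedOutside_cycloChar_eq_one :
    ∃ F : IntermediateField ℚ Qb, F.IsUnramifiedOutside {pPrime p} ∧
      ∀ s ∈ F.fixingSubgroup, cycloChar p s = 1 := by
  have hp' : p.Prime := hp.out
  haveI : NeZero p := ⟨hp'.ne_zero⟩
  obtain ⟨ζ, hζ⟩ : ∃ ζ : Qb, IsPrimitiveRoot ζ p :=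
    HasEnoughRootsOfUnity.exists_primitiveRoot Qb p
  have hfix : ∀ s : GQ, s ζ = ζ → cycloChar p s = 1 := by
    intro s hs
    rw [cycloChar_eq_one_iff]
    intro x hx
    obtain ⟨i, -, rfl⟩ := hζ.eq_pow_of_pow_eq_one hx
    rw [map_pow, hs]
  refine ⟨IntermediateField.adjoin ℚ {ζ}, ⟨?_, fun q hq A hA σ hσ => ?_⟩, fun s hs => ?_⟩
  · exact IntermediateField.adjoin.finiteDimensional
      ((hζ.isIntegral hp'.pos).tower_top (R := ℤ))
  · have hqp : (q : ℕ) ≠ p := by
      intro h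
      apply hq
      rw [Finset.mem_singleton]
      exact Subtype.ext h
    have h1 := cycloChar_eq_one_of_mem_inertia p q.2 hqp A hA hσ
    rw [cycloChar_eq_one_iff] at h1
    rw [IntermediateField.mem_fixingSubgroup_iff]
    intro x hx
    have hle : IntermediateField.adjoin ℚ {ζ} ≤ IntermediateField.fixedField (Subgroup.zpowers σ) := by
      rw [IntermediateField.adjoin_le_iff]
      intro y hy
      have hy' : y = ζ := hy
      rw [hy', SetLike.mem_coe, IntermediateField.mem_fixedField_iff]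
      intro τ hτ
      obtain ⟨n, rfl⟩ := Subgroup.mem_zpowers_iff.1 hτ
      have h2 : σ ζ = ζ := h1 ζ hζ.pow_eq_one
      have : ∀ m : ℕ, (σ ^ m) ζ = ζ := by
        intro m
        induction m with
        | zero => simp
        | succ m ih => rw [pow_succ, AlgEquiv.mul_apply, h2, ih]
      rcases Int.eq_nat_or_neg n with ⟨m, rfl | rfl⟩
      · simpa using this m
      · rw [zpow_neg, zpow_natCast]
        have h3 := this m
        calc (σ ^ m)⁻¹ ζ = (σ ^ m)⁻¹ ((σ ^ m) ζ) := by rw [h3]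
          _ = ((σ ^ m)⁻¹ * (σ ^ m)) ζ := rfl
          _ = ζ := by rw [inv_mul_cancel]; rfl
    have := hle hx
    rw [IntermediateField.mem_fixedField_iff] at this
    exact this σ (Subgroup.mem_zpowers σ)
  · apply hfix
    rw [IntermediateField.mem_fixingSubgroup_iff] at hs
    exact hs ζ (IntermediateField.mem_adjoin_simple_self ℚ ζ)

section DualTwist

variable {p}
variable {k : Type} [Field k] {G : Type} [Group G]

theorem dualTwist_rho_eq_one (M : Rep k G) (χ : G →* kˣ) {g : G} (h1 : M.ρ g = 1)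
    (h2 : χ g = 1) : (M.dualTwist χ).ρ g = 1 := by
  have h3 : M.ρ g⁻¹ = 1 := by
    have : M.ρ g⁻¹ * M.ρ g = 1 := by rw [← map_mul, inv_mul_cancel, map_one]
    rwa [h1, mul_one] at this
  ext f : 1
  rw [Rep.dualTwist_ρ_apply, h2, h3]
  simp [Module.End.one_eq_id]

variable (M : Rep (ZMod p) GQ)

/-- Open stabilisers pass to the Tate twist of the dual. -/
theorem exists_forall_dualTwist_rho_eq_one [FiniteDimensional (ZMod p) M]
    {F₀ : IntermediateField ℚ Qb} (hF₀ : ∀ s ∈ F₀.fixingSubgroup, M.ρ s = 1)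
    (S : Finset Nat.Primes) (hpS : pPrime p ∈ S) (hF₀S : F₀.IsUnramifiedOutside S) :
    ∃ F : IntermediateField ℚ Qb, F₀ ≤ F ∧ F.IsUnramifiedOutside S ∧
      (∀ s ∈ F.fixingSubgroup, M.ρ s = 1) ∧
      ∀ s ∈ F.fixingSubgroup, (M.dualTwist (cycloChar p)).ρ s = 1 := by
  obtain ⟨F₁, hF₁, h1⟩ := exists_isUnramifiedOutside_cycloChar_eq_one p
  have hF₁S : F₁.IsUnramifiedOutside S :=
    hF₁.mono (Finset.singleton_subset_iff.2 hpS)
  refine ⟨F₀ ⊔ F₁, le_sup_left, hF₀S.sup hF₁S, fun s hs => ?_, fun s hs => ?_⟩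
  · exact hF₀ s (IntermediateField.fixingSubgroup_antitone le_sup_left hs)
  · exact dualTwist_rho_eq_one M _
      (hF₀ s (IntermediateField.fixingSubgroup_antitone le_sup_left hs))
      (h1 s (IntermediateField.fixingSubgroup_antitone le_sup_right hs))

/-- Unramifiedness outside `S ∋ p` passes to the Tate twist of the dual. -/
theorem dualTwist_rho_eq_one_of_mem_inertia (S : Finset Nat.Primes) (hpS : pPrime p ∈ S)
    (hMur : ∀ q : Nat.Primes, q ∉ S → ∀ A : ValuationSubring Qb,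
      A.LiesOverPrime (q : ℕ) → ∀ g ∈ A.inertiaSubgroupIn ℚ, M.ρ g = 1) :
    ∀ q : Nat.Primes, q ∉ S → ∀ A : ValuationSubring Qb,
      A.LiesOverPrime (q : ℕ) → ∀ g ∈ A.inertiaSubgroupIn ℚ,
        (M.dualTwist (cycloChar p)).ρ g = 1 := by
  intro q hq A hA g hg
  have hqp : (q : ℕ) ≠ p := by
    intro h
    apply hq
    have : q = pPrime p := Subtype.ext h
    rwa [this]
  exact dualTwist_rho_eq_one M _ (hMur q hq A hA g hg)
    (cycloChar_eq_one_of_mem_inertia p q.2 hqp A hA hg)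

end DualTwist

end Fermat.Agent.S55
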