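import Fermat.Agent.S55.LCRes

/-!
# Smoothness of internal Homs (LC7a)

For a level structure `L` on `G`:
* a finitely generated smooth module is acted on trivially by a single level;
* if `P` is finitely generated and smooth and `X` is smooth then `(Rep.ihom P).obj X`
  (`= Hom_k(P, X)` with the conjugation action) is smooth;
* restriction along a group homomorphism commutes with `ihom` (up to the identity isomorphism).
-/

set_option autoImplicit false

universe u

open CategoryTheory groupCohomology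
open Fermat.Agent.CFT

namespace Fermat.Agent.S55

section Hom

variable {k G H : Type u} [CommRing k] [Group G] [Group H]
variable {L : LevelStructure G}

/-- If `g` fixes a spanning set of `P` pointwise then `g` acts trivially. -/
theorem rho_eq_one_of_span {P : Rep.{u} k G} {s : Set P} (hs : Submodule.span k s = ⊤) {g : G}
    (h : ∀ a ∈ s, P.ρ g a = a) : P.ρ g = 1 := by
  refine LinearMap.ext_on hs fun a ha => ?_
  rw [h a ha, Module.End.one_apply]

/-- A finitely generated smooth module is acted on trivially by a single level. -/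
theorem exists_level_rho_eq_one_of_isSmooth {P : Rep.{u} k G} [Module.Finite k P]
    (hP : IsSmooth L P) : ∃ N, L.IsLevel N ∧ ∀ g ∈ N, P.ρ g = 1 := by
  obtain ⟨s, hs⟩ := (Module.finite_def (R := k) (M := P)).1 inferInstance
  obtain ⟨N, hN, h⟩ := hP.exists_level_of_finite (s := (s : Set P)) s.finite_toSet
  exact ⟨N, hN, fun g hg => rho_eq_one_of_span hs fun a ha => h a ha g hg⟩

/-- Conversely a module on which a level acts trivially is smooth. -/
theorem isSmooth_of_forall_rho_eq_one {P : Rep.{u} k G} {N : Subgroup G} (hN : L.IsLevel N)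
    (h : ∀ g ∈ N, P.ρ g = 1) : IsSmooth L P := fun a =>
  ⟨N, hN, fun g hg => by rw [h g hg, Module.End.one_apply]⟩

/-- `Hom_k(P, X)` is smooth when a level acts trivially on the finitely generated `P` and `X` is
smooth. -/
theorem isSmooth_ihom_of_level {P X : Rep.{u} k G} [Module.Finite k P] {N₁ : Subgroup G}
    (hN₁ : L.IsLevel N₁) (hP : ∀ g ∈ N₁, P.ρ g = 1) (hX : IsSmooth L X) :
    IsSmooth L ((Rep.ihom P).obj X) := by
  intro f
  obtain ⟨s, hs⟩ := (Module.finite_def (R := k) (M := P)).1 inferInstance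
  have hfin : ((fun a : P => (show P →ₗ[k] X from f) a) '' (s : Set P)).Finite :=
    s.finite_toSet.image _
  obtain ⟨N₂, hN₂, h₂⟩ := hX.exists_level_of_finite hfin
  obtain ⟨N, hN, hle⟩ := L.directed hN₁ hN₂
  refine ⟨N, hN, fun g hg => ?_⟩
  have hg₁ : g ∈ N₁ := (hle.trans inf_le_left) hg
  have hg₂ : g ∈ N₂ := (hle.trans inf_le_right) hg
  have hinv : P.ρ g⁻¹ = 1 := hP _ (N₁.inv_mem hg₁)
  change X.ρ g ∘ₗ (show P →ₗ[k] X from f) ∘ₗ P.ρ g⁻¹ = (show P →ₗ[k] X from f)
  rw [hinv]
  refine LinearMap.ext_on hs fun a ha => ?_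
  simp only [LinearMap.comp_apply]
  exact h₂ _ ⟨a, ha, rfl⟩ g hg₂

/-- `Hom_k(P, X)` is smooth for `P` finitely generated smooth and `X` smooth. -/
theorem isSmooth_ihom {P X : Rep.{u} k G} [Module.Finite k P] (hP : IsSmooth L P)
    (hX : IsSmooth L X) : IsSmooth L ((Rep.ihom P).obj X) := by
  obtain ⟨N₁, hN₁, h₁⟩ := exists_level_rho_eq_one_of_isSmooth hP
  exact isSmooth_ihom_of_level hN₁ h₁ hX

/-- Restriction commutes with internal Hom: the identity map is an isomorphism
`Res (Hom(P, X)) ≅ Hom(Res P, Res X)`. -/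
noncomputable def resIhomIso (f : H →* G) (P X : Rep.{u} k G) :
    Rep.res f ((Rep.ihom P).obj X) ≅ (Rep.ihom (Rep.res f P)).obj (Rep.res f X) :=
  Rep.mkIso (Representation.Equiv.mk (LinearEquiv.refl k (P →ₗ[k] X)) fun h => by
    ext φ x
    change X.ρ (f h) ((show P →ₗ[k] X from φ) (P.ρ ((f h)⁻¹) x)) =
      X.ρ (f h) ((show P →ₗ[k] X from φ) (P.ρ (f h⁻¹) x))
    rw [map_inv f h])

@[simp] theorem resIhomIso_hom_apply (f : H →* G) (P X : Rep.{u} k G)
    (φ : Rep.res f ((Rep.ihom P).obj X)) :
    (resIhomIso f P X).hom.hom φ = (show P →ₗ[k] X from φ) := rfl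

@[simp] theorem resIhomIso_inv_apply (f : H →* G) (P X : Rep.{u} k G)
    (φ : (Rep.ihom (Rep.res f P)).obj (Rep.res f X)) :
    (resIhomIso f P X).inv.hom φ = (show P →ₗ[k] X from φ) := rfl

end Hom

end Fermat.Agent.S55
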