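import Fermat.Agent.S55.LocalTower
import Fermat.Agent.S55.TrivField

/-!
# S55 bridge (B7): Krasner cofinality

Every element of `ℚ̄_q = PadicAlgCl q` lies in `K_F = ℚ_q(ι F)` for some finite extension `F/ℚ`
inside `ℚ̄`: the local fields coming from number fields are cofinal among all finite extensions
of `ℚ_q`.  Consequently the open subgroups `r_q⁻¹(Gal(ℚ̄/F))` of the Prelude's local level group are
cofinal among all open subgroups of `G_{ℚ_q}`.
-/

set_option autoImplicit false
set_option linter.style.haveILetI false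

open scoped NNReal Pointwise
open Polynomial

namespace Fermat.Agent.S55

local notation "Qb" => AlgebraicClosure ℚ
local notation "GQ" => (AlgebraicClosure ℚ ≃ₐ[ℚ] AlgebraicClosure ℚ)

variable (q : ℕ) [hq : Fact q.Prime]

local notation "Gq" => (PadicAlgCl q ≃ₐ[ℚ_[q]] PadicAlgCl q)

/-- Elements of `ℚ̄_q` algebraic over `ℚ` lie in the image of `ℚ̄`. -/
theorem exists_padicEmbedding_eq_of_aeval_eq_zero {h : ℚ[X]} (h0 : h ≠ 0) {β : PadicAlgCl q}
    (hβ : aeval β h = 0) : ∃ b : Qb, padicEmbedding q b = β := by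
  have hsplit : (h.map (algebraMap ℚ Qb)).Splits := IsAlgClosed.splits _
  have hne : h.map (algebraMap ℚ Qb) ≠ 0 :=
    (Polynomial.map_ne_zero_iff (algebraMap ℚ Qb).injective).2 h0
  have hroot : ((h.map (algebraMap ℚ Qb)).map (padicEmbedding q).toRingHom).IsRoot β := by
    rw [Polynomial.map_map, IsRoot.def, eval_map]
    have : (padicEmbedding q).toRingHom.comp (algebraMap ℚ Qb) = algebraMap ℚ (PadicAlgCl q) :=
      (padicEmbedding q).comp_algebraMap
    rw [this, ← aeval_def]
    exact hβ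
  obtain ⟨b, hb⟩ := hsplit.mem_range_of_isRoot hne hroot
  exact ⟨b, hb⟩

/-- A monic polynomial over an algebraically closed normed field taking a small value at `α` has
a root close to `α`. -/
theorem exists_isRoot_norm_sub_lt {L : Type*} [NormedField L] [IsAlgClosed L] {h : L[X]}
    (hm : h.Monic) {α : L} {δ : ℝ} (hδ : 0 < δ) (hlt : ‖h.eval α‖ < δ ^ h.natDegree) :
    ∃ β, h.IsRoot β ∧ ‖α - β‖ < δ := by
  by_contra hcon
  push Not at hcon
  lift δ to ℝ≥0 using hδ.le
  have hsplit : h.Splits := IsAlgClosed.splits h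
  have h0 : h ≠ 0 := hm.ne_zero
  have heval := hsplit.eval_eq_prod_roots_of_monic hm α
  have hcard : h.roots.card = h.natDegree := hsplit.natDegree_eq_card_roots.symm
  have hnn : δ ^ (h.roots.map fun β => ‖α - β‖₊).card ≤
      (h.roots.map fun β => ‖α - β‖₊).prod := by
    apply Multiset.pow_card_le_prod
    intro x hx
    obtain ⟨β, hβ, rfl⟩ := Multiset.mem_map.1 hx
    rw [← NNReal.coe_le_coe]
    exact hcon β ((mem_roots h0).1 hβ)
  rw [Multiset.card_map, hcard] at hnn
  have hprod : ‖h.eval α‖₊ = (h.roots.map fun β => ‖α - β‖₊).prod := by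
    rw [heval]
    have := map_multiset_prod (nnnormHom : L →*₀ ℝ≥0) (h.roots.map fun β => α - β)
    rw [Multiset.map_map] at this
    exact this
  rw [← hprod, ← NNReal.coe_le_coe] at hnn
  have : (δ : ℝ) ^ h.natDegree ≤ ‖h.eval α‖ := by simpa using hnn
  linarith

/-- **Krasner cofinality**: every element of `ℚ̄_q` lies in `ℚ_q(ι b)` for some `b ∈ ℚ̄`. -/
theorem exists_mem_localField (α : PadicAlgCl q) :
    ∃ b : Qb, α ∈ localField q (IntermediateField.adjoin ℚ {b}) := by
  classical
  have hint : IsIntegral ℚ_[q] α := Algebra.IsIntegral.isIntegral α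
  set g := minpoly ℚ_[q] α with hg
  have hgm : g.Monic := minpoly.monic hint
  have hg0 : g ≠ 0 := hgm.ne_zero
  set n := g.natDegree with hn
  have hn0 : 0 < n := minpoly.natDegree_pos hint
  -- `δ`: a positive lower bound for the distance from `α` to its other conjugates
  obtain ⟨δ, hδ, hδle⟩ : ∃ δ : ℝ, 0 < δ ∧
      ∀ x' : PadicAlgCl q, IsConjRoot ℚ_[q] α x' → α ≠ x' → δ ≤ ‖α - x'‖ := by
    let s : Finset (PadicAlgCl q) := (g.aroots (PadicAlgCl q)).toFinset.erase α
    have hmem : ∀ x' : PadicAlgCl q, IsConjRoot ℚ_[q] α x' → α ≠ x' → x' ∈ s := by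
      intro x' hx' hne
      rw [Finset.mem_erase, Multiset.mem_toFinset, mem_aroots]
      refine ⟨hne.symm, hg0, ?_⟩
      have : g = minpoly ℚ_[q] x' := hx'
      rw [this]
      exact minpoly.aeval _ _
    by_cases hs : s.Nonempty
    · refine ⟨s.inf' hs (fun x => ‖α - x‖), ?_, fun x' hx' hne => ?_⟩
      · rw [Finset.lt_inf'_iff]
        intro x hx
        exact norm_pos_iff.2 (sub_ne_zero.2 (Finset.ne_of_mem_erase hx).symm)
      · exact Finset.inf'_le _ (hmem x' hx' hne)
    · exact ⟨1, one_pos, fun x' hx' hne => absurd ⟨x', hmem x' hx' hne⟩ hs⟩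
  -- the approximation parameters
  set Cst : ℝ := max 1 ‖α‖ ^ n with hC
  have hC1 : 1 ≤ Cst := one_le_pow₀ (le_max_left _ _)
  set ε : ℝ := δ ^ n / (n * Cst + 1) with hε
  have hden : 0 < (n : ℝ) * Cst + 1 := by positivity
  have hε0 : 0 < ε := div_pos (pow_pos hδ n) hden
  have hεlt : (n : ℝ) * ε * Cst < δ ^ n := by
    rw [hε]
    have : (n : ℝ) * (δ ^ n / (n * Cst + 1)) * Cst = δ ^ n * ((n * Cst) / (n * Cst + 1)) := by
      field_simp
    rw [this]
    have h1 : (n : ℝ) * Cst / (n * Cst + 1) < 1 := by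
      rw [div_lt_one hden]; linarith
    calc δ ^ n * ((n : ℝ) * Cst / (n * Cst + 1)) < δ ^ n * 1 :=
          mul_lt_mul_of_pos_left h1 (pow_pos hδ n)
      _ = δ ^ n := mul_one _
  -- rational approximations of the coefficients
  have hc : ∀ i : Fin n, ∃ r : ℚ, ‖(r : ℚ_[q]) - g.coeff i‖ < ε := by
    intro i
    obtain ⟨r, hr⟩ := (Padic.denseRange_ratCast q).exists_dist_lt (g.coeff i) hε0
    exact ⟨r, by rwa [dist_comm, dist_eq_norm] at hr⟩
  choose c hc using hc
  -- the rational polynomial
  set h : ℚ[X] := X ^ n + ∑ i : Fin n, C (c i) * X ^ (i : ℕ) with hh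
  have hdeg : (∑ i : Fin n, C (c i) * X ^ (i : ℕ) : ℚ[X]).degree < n :=
    Polynomial.degree_sum_fin_lt c
  have hhm : h.Monic := Polynomial.monic_X_pow_add hdeg
  have hhn : h.natDegree = n := by
    rw [hh, natDegree_add_eq_left_of_degree_lt (by rwa [degree_X_pow]), natDegree_X_pow]
  set hL : (PadicAlgCl q)[X] := h.map (algebraMap ℚ (PadicAlgCl q)) with hhL
  have hLm : hL.Monic := hhm.map _
  have hLn : hL.natDegree = n := by rw [hhL, hhm.natDegree_map, hhn]
  -- the value of `hL` at `α`
  have heval : hL.eval α = ∑ i : Fin n,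
      (algebraMap ℚ_[q] (PadicAlgCl q) ((c i : ℚ_[q]) - g.coeff i)) * α ^ (i : ℕ) := by
    have h1 : hL.eval α = α ^ n + ∑ i : Fin n, (c i : PadicAlgCl q) * α ^ (i : ℕ) := by
      rw [hhL, eval_map, ← aeval_def, hh]
      simp [map_sum]
    have h2 : (0 : PadicAlgCl q) = α ^ n + ∑ i : Fin n,
        algebraMap ℚ_[q] (PadicAlgCl q) (g.coeff i) * α ^ (i : ℕ) := by
      have := minpoly.aeval ℚ_[q] α
      have hcn : g.coeff n = 1 := hgm.coeff_natDegree
      rw [← hg, aeval_eq_sum_range, ← hn, Finset.sum_range_succ, hcn, one_smul,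
        Finset.sum_range] at this
      rw [← this, add_comm]
      congr 1
      exact Finset.sum_congr rfl fun i _ => Algebra.smul_def _ _
    rw [h1, ← sub_zero (α ^ n + _), h2, add_sub_add_left_eq_sub, ← Finset.sum_sub_distrib]
    refine Finset.sum_congr rfl fun i _ => ?_
    rw [map_sub, map_ratCast, sub_mul]
  have hnorm : ‖hL.eval α‖ < δ ^ hL.natDegree := by
    rw [hLn, heval]
    refine lt_of_le_of_lt (norm_sum_le _ _) ?_
    have hterm : ∀ i : Fin n, ‖(algebraMap ℚ_[q] (PadicAlgCl q) ((c i : ℚ_[q]) - g.coeff i)) *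
        α ^ (i : ℕ)‖ ≤ ε * Cst := by
      intro i
      rw [norm_mul, PadicAlgCl.norm_extends, norm_pow]
      refine mul_le_mul (hc i).le ?_ (pow_nonneg (norm_nonneg _) _) hε0.le
      calc ‖α‖ ^ (i : ℕ) ≤ max 1 ‖α‖ ^ (i : ℕ) :=
            pow_le_pow_left₀ (norm_nonneg _) (le_max_right _ _) _
        _ ≤ max 1 ‖α‖ ^ n := pow_le_pow_right₀ (le_max_left _ _) i.2.le
    refine lt_of_le_of_lt (Finset.sum_le_sum fun i _ => hterm i) ?_
    rw [Finset.sum_const, Finset.card_univ, Fintype.card_fin, nsmul_eq_mul, ← mul_assoc]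
    exact hεlt
  obtain ⟨β, hβroot, hβ⟩ := exists_isRoot_norm_sub_lt hLm hδ hnorm
  have hβ0 : aeval β h = 0 := by
    rw [aeval_def, ← eval_map]
    exact hβroot
  obtain ⟨b, rfl⟩ := exists_padicEmbedding_eq_of_aeval_eq_zero q hhm.ne_zero hβ0
  refine ⟨b, ?_⟩
  rw [localField_adjoin_simple]
  refine IsKrasner.krasner (K := ℚ_[q]) (minpoly.irreducible hint).separable
    (IsAlgClosed.splits _) (Algebra.IsIntegral.isIntegral _) fun x' hx' hne => ?_
  exact lt_of_lt_of_le hβ (hδle x' hx' hne)

/-- Every finite extension of `ℚ_q` inside `ℚ̄_q` is contained in `K_F` for a finite Galois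
extension `F/ℚ`. -/
theorem exists_isGalois_le_localField (K : IntermediateField ℚ_[q] (PadicAlgCl q))
    [FiniteDimensional ℚ_[q] K] :
    ∃ F : IntermediateField ℚ Qb, FiniteDimensional ℚ F ∧ IsGalois ℚ F ∧ K ≤ localField q F := by
  haveI : IsAlgClosure ℚ Qb := AlgebraicClosure.instIsAlgClosure ℚ
  haveI : Normal ℚ Qb := IsAlgClosure.normal ℚ Qb
  obtain ⟨α, hα⟩ := Field.exists_primitive_element ℚ_[q] K
  obtain ⟨b, hb⟩ := exists_mem_localField q (α : PadicAlgCl q)
  have hbalg : IsIntegral ℚ b := Algebra.IsIntegral.isIntegral b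
  haveI : FiniteDimensional ℚ (IntermediateField.adjoin ℚ {b}) :=
    IntermediateField.adjoin.finiteDimensional hbalg
  refine ⟨IntermediateField.normalClosure ℚ (IntermediateField.adjoin ℚ {b}) Qb, inferInstance,
    isGalois_of_normal _ inferInstance, ?_⟩
  have hK : K = IntermediateField.adjoin ℚ_[q] {(α : PadicAlgCl q)} := by
    have := congrArg IntermediateField.lift hα
    rw [IntermediateField.lift_adjoin_simple, IntermediateField.lift_top] at this
    exact this.symm
  rw [hK, IntermediateField.adjoin_le_iff]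
  intro y hy
  have : y = (α : PadicAlgCl q) := hy
  rw [this]
  exact localField_mono q (IntermediateField.le_normalClosure _) hb

/-- **Cofinality of the global-origin open subgroups** in `G_{ℚ_q}`. -/
theorem exists_isGalois_comap_fixingSubgroup_le (K : IntermediateField ℚ_[q] (PadicAlgCl q))
    [FiniteDimensional ℚ_[q] K] :
    ∃ F : IntermediateField ℚ Qb, FiniteDimensional ℚ F ∧ IsGalois ℚ F ∧
      F.fixingSubgroup.comap (localGaloisToGlobal q) ≤ K.fixingSubgroup := by
  obtain ⟨F, hfd, hgal, hle⟩ := exists_isGalois_le_localField q K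
  refine ⟨F, hfd, hgal, ?_⟩
  rw [← fixingSubgroup_localField]
  exact IntermediateField.fixingSubgroup_antitone hle

open groupCohomology in
/-- The Prelude's level-constant 1-cochains on `G_{ℚ_q}` are exactly the functions constant modulo
an open subgroup of `G_{ℚ_q}` (in the Krull topology). -/
theorem isLevelConstant₁_localGaloisToGlobal_iff {X : Type*} (f : Gq → X) :
    IsLevelConstant₁ (localGaloisToGlobal q) f ↔
      ∃ K : IntermediateField ℚ_[q] (PadicAlgCl q), FiniteDimensional ℚ_[q] K ∧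
        ∀ g s, s ∈ K.fixingSubgroup → f (g * s) = f g := by
  constructor
  · rintro ⟨F, hF, h⟩
    haveI := hF
    refine ⟨localField q F, finiteDimensional_localField q F, fun g s hs => h g s ?_⟩
    exact (mem_fixingSubgroup_localField_iff q F s).1 hs
  · rintro ⟨K, hK, h⟩
    haveI := hK
    obtain ⟨F, hfd, -, hle⟩ := exists_isGalois_comap_fixingSubgroup_le q K
    exact ⟨F, hfd, fun g s hs => h g s (hle hs)⟩

open groupCohomology in
/-- The Prelude's level-constant 2-cochains on `G_{ℚ_q}` are exactly the functions constant modulo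
an open subgroup of `G_{ℚ_q}` in each variable. -/
theorem isLevelConstant₂_localGaloisToGlobal_iff {X : Type*} (f : Gq × Gq → X) :
    IsLevelConstant₂ (localGaloisToGlobal q) f ↔
      ∃ K : IntermediateField ℚ_[q] (PadicAlgCl q), FiniteDimensional ℚ_[q] K ∧
        ∀ g g' s s', s ∈ K.fixingSubgroup → s' ∈ K.fixingSubgroup →
          f (g * s, g' * s') = f (g, g') := by
  constructor
  · rintro ⟨F, hF, h⟩
    haveI := hF
    refine ⟨localField q F, finiteDimensional_localField q F,
      fun g g' s s' hs hs' => h g g' s s' ?_ ?_⟩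
    · exact (mem_fixingSubgroup_localField_iff q F s).1 hs
    · exact (mem_fixingSubgroup_localField_iff q F s').1 hs'
  · rintro ⟨K, hK, h⟩
    haveI := hK
    obtain ⟨F, hfd, -, hle⟩ := exists_isGalois_comap_fixingSubgroup_le q K
    exact ⟨F, hfd, fun g g' s s' hs hs' => h g g' s s' (hle hs) (hle hs')⟩

end Fermat.Agent.S55
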