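import Fermat.Prelude.Def_GroupCohomology_ContinuousUnramified

/-!
# S55, end piece (E2): the archimedean local factor vanishes for odd `p`

For a finite group `G` whose order is invertible in `k`, `H¹(G, A) = 0`, and (in the Prelude's
level-constant model, for an injective structure map `r`) `H²` vanishes as well.  Applied to the
archimedean decomposition group `⟨complex conjugation⟩` this shows that the archimedean
conditions in `sha₁`, `sha₂` are vacuous when `p` is odd.
-/

set_option autoImplicit false
open CategoryTheory Module groupCohomology ExtCitation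

namespace Fermat.Agent.S55

universe u

section general

variable {k G : Type u} [CommRing k] [Group G]

/-- `H¹` of a finite group of invertible order vanishes. -/
theorem subsingleton_H1_of_isUnit_card [Finite G] (A : Rep k G)
    (h : IsUnit (Nat.card G : k)) : Subsingleton (H1 A) := by
  classical
  let _ : Fintype G := Fintype.ofFinite G
  obtain ⟨u, hu⟩ := h
  refine ⟨fun x y => ?_⟩
  suffices H : ∀ z : H1 A, z = 0 by rw [H x, H y]
  intro z
  induction z using H1_induction_on with
  | h f =>
    rw [H1π_eq_zero_iff]
    have hf := (mem_cocycles₁_iff (f : G → A)).1 f.2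
    set m : A := ∑ j : G, f j with hm
    -- `card • f g = m - ρ g m`
    have key : ∀ g : G, (Nat.card G : k) • f g = m - A.ρ g m := by
      intro g
      have h1 : ∑ j : G, f (g * j) = m :=
        Fintype.sum_equiv (Equiv.mulLeft g) _ _ (fun _ => rfl)
      have h2 : ∑ j : G, f (g * j) = A.ρ g m + (Nat.card G : k) • f g := by
        simp_rw [hf g]
        rw [Finset.sum_add_distrib, ← map_sum, Finset.sum_const, Finset.card_univ,
          Nat.card_eq_fintype_card, Nat.cast_smul_eq_nsmul]
      exact eq_sub_of_add_eq' (h2.symm.trans h1)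
    refine ⟨-((↑u⁻¹ : k) • m), ?_⟩
    funext g
    rw [d₀₁_hom_apply]
    have : f g = (↑u⁻¹ : k) • (m - A.ρ g m) := by
      rw [← key g, ← hu, smul_smul, Units.inv_mul, one_smul]
    rw [this, map_neg, map_smul, smul_sub]
    abel

variable (r : G →* (AlgebraicClosure ℚ ≃ₐ[ℚ] AlgebraicClosure ℚ))

/-- For a finite group mapping injectively to `G_ℚ`, there is a finite level at which the group
meets the fixing subgroup trivially. -/
theorem exists_finiteDimensional_forall_mem_fixingSubgroup_eq_one [Finite G]
    (hr : Function.Injective r) :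
    ∃ F : IntermediateField ℚ (AlgebraicClosure ℚ), FiniteDimensional ℚ F ∧
      ∀ s : G, r s ∈ F.fixingSubgroup → s = 1 := by
  classical
  let _ : Fintype G := Fintype.ofFinite G
  -- for each `g ≠ 1` choose an element moved by `r g`
  have hex : ∀ g : G, ∃ x : AlgebraicClosure ℚ, g ≠ 1 → r g x ≠ x := by
    intro g
    by_cases hg : g = 1
    · exact ⟨0, fun h => absurd hg h⟩
    · have : r g ≠ 1 := fun h => hg (hr (by rw [h, map_one]))
      have : ∃ x, r g x ≠ x := by
        by_contra hcon
        push Not at hcon
        exact this (AlgEquiv.ext hcon)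
      obtain ⟨x, hx⟩ := this
      exact ⟨x, fun _ => hx⟩
  choose x hx using hex
  refine ⟨IntermediateField.adjoin ℚ (Set.range x), ?_, fun s hs => ?_⟩
  · have : Algebra.IsAlgebraic ℚ (AlgebraicClosure ℚ) := AlgebraicClosure.isAlgebraic ℚ
    exact IntermediateField.finiteDimensional_adjoin
      (fun y _ => (Algebra.IsAlgebraic.isAlgebraic (R := ℚ) y).isIntegral)
  · by_contra hs1
    refine hx s hs1 ?_
    rw [IntermediateField.mem_fixingSubgroup_iff] at hs
    exact hs (x s) (IntermediateField.subset_adjoin ℚ _ (Set.mem_range_self s))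

theorem isLevelConstant₁_of_finite [Finite G] (hr : Function.Injective r) {X : Type*}
    (f : G → X) : IsLevelConstant₁ r f := by
  obtain ⟨F, hF, h⟩ := exists_finiteDimensional_forall_mem_fixingSubgroup_eq_one r hr
  exact ⟨F, hF, fun g s hs => by rw [h s hs, mul_one]⟩

theorem isLevelConstant₂_of_finite [Finite G] (hr : Function.Injective r) {X : Type*}
    (f : G × G → X) : IsLevelConstant₂ r f := by
  obtain ⟨F, hF, h⟩ := exists_finiteDimensional_forall_mem_fixingSubgroup_eq_one r hr
  exact ⟨F, hF, fun g g' s s' hs hs' => by rw [h s hs, h s' hs', mul_one, mul_one]⟩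

/-- In the level-constant model, `H²` of a finite group of invertible order (embedded in `G_ℚ`)
vanishes. -/
theorem subsingleton_continuousH2_of_isUnit_card [Finite G] (hr : Function.Injective r)
    (A : Rep k G) (h : IsUnit (Nat.card G : k)) : Subsingleton (continuousH2 r A) := by
  classical
  let _ : Fintype G := Fintype.ofFinite G
  obtain ⟨u, hu⟩ := h
  refine ⟨fun x y => ?_⟩
  suffices H : ∀ z : continuousH2 r A, z = 0 by rw [H x, H y]
  intro z
  obtain ⟨f, rfl⟩ := Submodule.mkQ_surjective _ z
  change continuousH2π r A f = 0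
  rw [continuousH2π_eq_zero_iff, mem_levelCoboundaries₂_iff]
  have hf := (mem_cocycles₂_iff (f : G × G → A)).1 f.2.1
  set x : G → A := fun g => ∑ j : G, (f : G × G → A) (g, j) with hx
  have key : ∀ g h' : G, (Nat.card G : k) • (f : G × G → A) (g, h') =
      A.ρ g (x h') - x (g * h') + x g := by
    intro g h'
    have h1 : ∑ j : G, (f : G × G → A) (g, h' * j) = x g :=
      Fintype.sum_equiv (Equiv.mulLeft h') _ _ (fun _ => rfl)
    have h2 : ∑ j : G, ((f : G × G → A) (g * h', j) + (f : G × G → A) (g, h')) =
        ∑ j : G, (A.ρ g ((f : G × G → A) (h', j)) + (f : G × G → A) (g, h' * j)) :=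
      Finset.sum_congr rfl fun j _ => hf g h' j
    rw [Finset.sum_add_distrib, Finset.sum_add_distrib, Finset.sum_const, Finset.card_univ,
      ← map_sum, h1] at h2
    rw [Nat.card_eq_fintype_card, Nat.cast_smul_eq_nsmul]
    have h3 : Fintype.card G • (f : G × G → A) (g, h') = A.ρ g (x h') + x g - x (g * h') := by
      rw [← h2]; simp only [hx]; abel
    rw [h3]; abel
  refine ⟨fun g => (↑u⁻¹ : k) • x g, isLevelConstant₁_of_finite r hr _, ?_⟩
  funext ⟨g, h'⟩
  rw [d₁₂_hom_apply]
  have : (f : G × G → A) (g, h') = (↑u⁻¹ : k) • (A.ρ g (x h') - x (g * h') + x g) := by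
    rw [← key g h', ← hu, smul_smul, Units.inv_mul, one_smul]
  rw [this, map_smul, smul_add, smul_sub]

end general

section arch

variable {p : ℕ} [Fact p.Prime]

theorem card_archimedeanDecomposition_dvd_two : Nat.card archimedeanDecomposition ∣ 2 := by
  rw [archimedeanDecomposition, Nat.card_zpowers]
  exact orderOf_dvd_of_pow_eq_one complexConjugation_sq

instance finite_archimedeanDecomposition : Finite archimedeanDecomposition := by
  refine Nat.finite_of_card_ne_zero fun h => ?_
  have := card_archimedeanDecomposition_dvd_two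
  rw [h] at this
  simp at this

theorem isUnit_card_archimedeanDecomposition (hp2 : p ≠ 2) :
    IsUnit (Nat.card archimedeanDecomposition : ZMod p) := by
  have hp : p.Prime := Fact.out
  rw [ZMod.isUnit_iff_coprime]
  exact Nat.Coprime.coprime_dvd_left card_archimedeanDecomposition_dvd_two
    ((Nat.coprime_primes Nat.prime_two hp).2 (Ne.symm hp2))

theorem archimedeanLoc_injective : Function.Injective archimedeanLoc :=
  Subgroup.subtype_injective _

variable (M : Rep (ZMod p) (AlgebraicClosure ℚ ≃ₐ[ℚ] AlgebraicClosure ℚ))

/-- For odd `p`, the archimedean local `H¹` vanishes. -/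
theorem subsingleton_H1_arch (hp2 : p ≠ 2) :
    Subsingleton (H1 (Rep.res archimedeanLoc M)) :=
  subsingleton_H1_of_isUnit_card _ (isUnit_card_archimedeanDecomposition hp2)

/-- For odd `p`, the archimedean local `H²` (level-constant model) vanishes. -/
theorem subsingleton_continuousH2_arch (hp2 : p ≠ 2) :
    Subsingleton (continuousH2 archimedeanLoc (Rep.res archimedeanLoc M)) :=
  subsingleton_continuousH2_of_isUnit_card _ archimedeanLoc_injective _
    (isUnit_card_archimedeanDecomposition hp2)

variable (S : Finset Nat.Primes)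

/-- For odd `p`, membership in `sha₁` only involves the finite places of `S`. -/
theorem mem_sha₁_iff (hp2 : p ≠ 2) (x : H1 M) :
    x ∈ sha₁ S M ↔ x ∈ continuousH1S S M ∧
      ∀ q : ↥S, (locRes (extArithLoc S) M (Sum.inr q)).hom x = 0 := by
  rw [sha₁, Submodule.mem_inf, LinearMap.mem_ker]
  refine and_congr_right fun _ => ⟨fun h q => ?_, fun h => ?_⟩
  · exact congrFun h (Sum.inr q)
  · funext v
    rcases v with v | q
    · have := subsingleton_H1_arch M hp2
      exact Subsingleton.elim (α := H1 (Rep.res archimedeanLoc M)) _ _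
    · exact h q

/-- For odd `p`, membership in `sha₂` only involves the finite places of `S`. -/
theorem mem_sha₂_iff (hp2 : p ≠ 2) (x : continuousH2S S M) :
    x ∈ sha₂ S M ↔ ∀ q : ↥S, locRes₂S S M (primeLocalToGlobal q.1) x = 0 := by
  rw [sha₂, LinearMap.mem_ker]
  refine ⟨fun h q => ?_, fun h => ?_⟩
  · exact congrFun h (Sum.inr q)
  · funext v
    rcases v with v | q
    · have := subsingleton_continuousH2_arch M hp2
      exact Subsingleton.elim
        (α := continuousH2 archimedeanLoc (Rep.res archimedeanLoc M)) _ _
    · exact h q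

end arch

end Fermat.Agent.S55
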