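import Fermat.Agent.CFT.LC.Cochains

/-!
# Restriction maps in level cohomology

For `f : H →* G` compatible with level structures `L` on `G` and `L'` on `H` (the preimage of every
level of `G` contains a level of `H`), composition of cochains with `f` induces
`lcResH1 : LC.H1 L A → LC.H1 L' (Rep.res f A)` and `lcResH2 : LC.H2 L A → LC.H2 L' (Rep.res f A)`.
We also record the natural injection `LC.H1 L A → H¹(G, A)` into Mathlib's group cohomology and its
compatibility with Mathlib's functoriality `groupCohomology.map`.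
-/

set_option autoImplicit false

universe u

open CategoryTheory groupCohomology
open Fermat.Agent.CFT

namespace Fermat.Agent.S55

section Res

variable {k G H : Type u} [CommRing k] [Group G] [Group H]

/-- `f : H →* G` is compatible with level structures `L` on `G` and `L'` on `H` if the preimage of
every level of `G` contains a level of `H`. -/
def LevelCompat (f : H →* G) (L : LevelStructure G) (L' : LevelStructure H) : Prop :=
  ∀ N, L.IsLevel N → ∃ N', L'.IsLevel N' ∧ N' ≤ N.comap f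

theorem levelCompat_comap (f : H →* G) (L : LevelStructure G) : LevelCompat f L (L.comap f) :=
  fun N hN => ⟨_, ⟨N, hN, rfl⟩, le_rfl⟩

theorem levelCompat_id (L : LevelStructure G) : LevelCompat (MonoidHom.id G) L L :=
  fun N hN => ⟨N, hN, le_rfl⟩

variable {f : H →* G} {L : LevelStructure G} {L' : LevelStructure H}

theorem LevelCompat.isLC₁ (hf : LevelCompat f L L') {X : Type*} {x : G → X} (hx : L.IsLC₁ x) :
    L'.IsLC₁ (x ∘ f) := by
  obtain ⟨N, hN, h⟩ := hx
  obtain ⟨N', hN', hle⟩ := hf N hN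
  refine ⟨N', hN', fun g s hs => ?_⟩
  simp only [Function.comp_apply, map_mul]
  exact h (f g) (f s) (hle hs)

theorem LevelCompat.isLC₂ (hf : LevelCompat f L L') {X : Type*} {x : G × G → X}
    (hx : L.IsLC₂ x) : L'.IsLC₂ (x ∘ Prod.map f f) := by
  obtain ⟨N, hN, h⟩ := hx
  obtain ⟨N', hN', hle⟩ := hf N hN
  refine ⟨N', hN', fun g g' s hs s' hs' => ?_⟩
  simp only [Function.comp_apply, Prod.map_apply, map_mul]
  exact h (f g) (f g') (f s) (hle hs) (f s') (hle hs')

/-- Smoothness is inherited by restriction along a compatible homomorphism. -/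
theorem LevelCompat.isSmooth_res (hf : LevelCompat f L L') {A : Rep.{u} k G}
    (hA : IsSmooth L A) : IsSmooth L' (Rep.res f A) := by
  intro a
  obtain ⟨N, hN, h⟩ := hA a
  obtain ⟨N', hN', hle⟩ := hf N hN
  exact ⟨N', hN', fun g hg => h (f g) (hle hg)⟩

variable (f) (A : Rep.{u} k G)

/-- Composition of `1`-cochains with `f`. -/
def pullC₁ : (G → A) →ₗ[k] (H → Rep.res f A) where
  toFun x := x ∘ f
  map_add' _ _ := rfl
  map_smul' _ _ := rfl

/-- Composition of `2`-cochains with `f × f`. -/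
def pullC₂ : (G × G → A) →ₗ[k] (H × H → Rep.res f A) where
  toFun x := x ∘ Prod.map f f
  map_add' _ _ := rfl
  map_smul' _ _ := rfl

@[simp] theorem pullC₁_apply (x : G → A) (h : H) : pullC₁ f A x h = x (f h) := rfl

@[simp] theorem pullC₂_apply (x : G × G → A) (p : H × H) :
    pullC₂ f A x p = x (f p.1, f p.2) := rfl

theorem pullC₁_d₀₁ (a : A) :
    pullC₁ f A ((d₀₁ A).hom a) = (d₀₁ (Rep.res f A)).hom (show Rep.res f A from a) := by
  funext h
  rw [pullC₁_apply, d₀₁_hom_apply, d₀₁_hom_apply]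
  rfl

theorem pullC₂_d₁₂ (x : G → A) :
    pullC₂ f A ((d₁₂ A).hom x) = (d₁₂ (Rep.res f A)).hom (pullC₁ f A x) := by
  funext ⟨g, h⟩
  rw [pullC₂_apply, d₁₂_hom_apply, d₁₂_hom_apply]
  simp only [pullC₁_apply, map_mul]
  rfl

theorem pullC₁_mem_cocycles₁ {x : G → A} (hx : x ∈ cocycles₁ A) :
    pullC₁ f A x ∈ cocycles₁ (Rep.res f A) := by
  rw [mem_cocycles₁_iff] at hx ⊢
  intro g h
  simp only [pullC₁_apply, map_mul]
  exact hx (f g) (f h)

theorem pullC₂_mem_cocycles₂ {x : G × G → A} (hx : x ∈ cocycles₂ A) :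
    pullC₂ f A x ∈ cocycles₂ (Rep.res f A) := by
  rw [mem_cocycles₂_iff] at hx ⊢
  intro g h j
  simp only [pullC₂_apply, map_mul]
  exact hx (f g) (f h) (f j)

variable {f}

/-- Restriction of LC `1`-cocycles. -/
def lcResZ₁ (hf : LevelCompat f L L') : ↥(LC.Z₁ L A) →ₗ[k] ↥(LC.Z₁ L' (Rep.res f A)) :=
  (pullC₁ f A).restrict fun _ hx => ⟨pullC₁_mem_cocycles₁ f A hx.1, hf.isLC₁ hx.2⟩

/-- Restriction of LC `2`-cocycles. -/
def lcResZ₂ (hf : LevelCompat f L L') : ↥(LC.Z₂ L A) →ₗ[k] ↥(LC.Z₂ L' (Rep.res f A)) :=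
  (pullC₂ f A).restrict fun _ hx => ⟨pullC₂_mem_cocycles₂ f A hx.1, hf.isLC₂ hx.2⟩

@[simp] theorem coe_lcResZ₁ (hf : LevelCompat f L L') (c : ↥(LC.Z₁ L A)) :
    (lcResZ₁ A hf c : H → Rep.res f A) = pullC₁ f A c := rfl

@[simp] theorem coe_lcResZ₂ (hf : LevelCompat f L L') (c : ↥(LC.Z₂ L A)) :
    (lcResZ₂ A hf c : H × H → Rep.res f A) = pullC₂ f A c := rfl

/-- Restriction in level cohomology, degree `1`. -/
def lcResH1 (hf : LevelCompat f L L') : LC.H1 L A →ₗ[k] LC.H1 L' (Rep.res f A) :=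
  Submodule.mapQ _ _ (lcResZ₁ A hf) (by
    intro c hc
    simp only [Submodule.mem_comap, Submodule.subtype_apply] at hc ⊢
    obtain ⟨a, ha⟩ := hc
    refine ⟨(show Rep.res f A from a), ?_⟩
    rw [coe_lcResZ₁, ← ha, pullC₁_d₀₁])

/-- Restriction in level cohomology, degree `2`. -/
def lcResH2 (hf : LevelCompat f L L') : LC.H2 L A →ₗ[k] LC.H2 L' (Rep.res f A) :=
  Submodule.mapQ _ _ (lcResZ₂ A hf) (by
    intro c hc
    simp only [Submodule.mem_comap, Submodule.subtype_apply] at hc ⊢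
    obtain ⟨x, hx, hxc⟩ := LC.mem_B₂_iff.1 hc
    refine LC.mem_B₂_iff.2 ⟨pullC₁ f A x, hf.isLC₁ hx, ?_⟩
    rw [coe_lcResZ₂, ← hxc, pullC₂_d₁₂])

@[simp] theorem lcResH1_mk (hf : LevelCompat f L L') (c : ↥(LC.Z₁ L A)) :
    lcResH1 A hf (LC.H1π L A c) = LC.H1π L' (Rep.res f A) (lcResZ₁ A hf c) := rfl

@[simp] theorem lcResH2_mk (hf : LevelCompat f L L') (c : ↥(LC.Z₂ L A)) :
    lcResH2 A hf (LC.H2π L A c) = LC.H2π L' (Rep.res f A) (lcResZ₂ A hf c) := rfl

end Res

section ToH1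

variable {k G H : Type u} [CommRing k] [Group G] [Group H]
variable (L : LevelStructure G) (A : Rep.{u} k G)

/-- LC `1`-cocycles as Mathlib `1`-cocycles (any group). -/
noncomputable def lcZ₁ToCocycles₁Gen : ↥(LC.Z₁ L A) →ₗ[k] ↥(cocycles₁ A) :=
  Submodule.inclusion inf_le_left

@[simp] theorem coe_lcZ₁ToCocycles₁Gen (c : ↥(LC.Z₁ L A)) :
    (lcZ₁ToCocycles₁Gen L A c : G → A) = c := rfl

/-- The natural map from level cohomology to Mathlib's `H¹` (any group). -/
noncomputable def lcH1ToH1Gen : LC.H1 L A →ₗ[k] groupCohomology.H1 A :=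
  Submodule.liftQ _ ((H1π A).hom ∘ₗ lcZ₁ToCocycles₁Gen L A) (by
    intro c hc
    rw [LinearMap.mem_ker, LinearMap.comp_apply]
    exact (H1π_eq_zero_iff _).2 hc)

@[simp]
theorem lcH1ToH1Gen_mk (c : ↥(LC.Z₁ L A)) :
    lcH1ToH1Gen L A (LC.H1π L A c) = (H1π A).hom (lcZ₁ToCocycles₁Gen L A c) := rfl

theorem lcH1ToH1Gen_injective : Function.Injective (lcH1ToH1Gen L A) := by
  rw [← LinearMap.ker_eq_bot, eq_bot_iff]
  intro x hx
  obtain ⟨c, rfl⟩ := Submodule.mkQ_surjective _ x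
  rw [LinearMap.mem_ker] at hx
  change (H1π A).hom (lcZ₁ToCocycles₁Gen L A c) = 0 at hx
  have h := (H1π_eq_zero_iff _).1 hx
  rw [Submodule.mem_bot]
  exact (LC.H1π_eq_zero_iff c).2 h

theorem lcH1ToH1Gen_eq_zero_iff (x : LC.H1 L A) : lcH1ToH1Gen L A x = 0 ↔ x = 0 :=
  ⟨fun h => lcH1ToH1Gen_injective L A (by rw [h, map_zero]), fun h => by rw [h, map_zero]⟩

variable {L} {L' : LevelStructure H} {f : H →* G}

/-- The restriction map of level cohomology is compatible with Mathlib's restriction on `H¹`. -/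
theorem map_lcH1ToH1Gen (hf : LevelCompat f L L') (x : LC.H1 L A) :
    (groupCohomology.map f (𝟙 (Rep.res f A)) 1).hom (lcH1ToH1Gen L A x) =
      lcH1ToH1Gen L' (Rep.res f A) (lcResH1 A hf x) := by
  obtain ⟨c, rfl⟩ := Submodule.mkQ_surjective _ x
  change (groupCohomology.map f (𝟙 (Rep.res f A)) 1).hom
      ((H1π A).hom (lcZ₁ToCocycles₁Gen L A c)) =
    (H1π (Rep.res f A)).hom (lcZ₁ToCocycles₁Gen L' (Rep.res f A) (lcResZ₁ A hf c))
  have := H1π_comp_map_apply f (𝟙 (Rep.res f A)) (lcZ₁ToCocycles₁Gen L A c)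
  refine this.trans ?_
  congr 1

end ToH1

end Fermat.Agent.S55
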