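import Fermat.Agent.S55.LCBridgeLocal
import Fermat.Agent.S55.LCRes
import Fermat.Agent.S55.Arch

/-!
# S55 bridge (D5a), compatibility part

The Prelude's localisation maps `locRes₂S` (on `continuousH2S`) and `locRes` (on `H¹`) correspond,
under the dictionary of `LCBridgeGlobal` / `LCBridgeLocal`, to the restriction maps `lcResH2`,
`lcResH1` of level cohomology.  We define the LC Tate–Shafarevich groups `shaLC₁`, `shaLC₂`
(kernels of the total restriction to the finite places of `S`) and identify them with the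
Prelude's `sha₁`, `sha₂` for odd `p`.
-/

set_option autoImplicit false
set_option linter.style.haveILetI false

open CategoryTheory Module groupCohomology ExtCitation
open Fermat.Agent.CFT

namespace Fermat.Agent.S55

local notation "Qb" => AlgebraicClosure ℚ
local notation "GQ" => (AlgebraicClosure ℚ ≃ₐ[ℚ] AlgebraicClosure ℚ)

section Compat

variable {H : Type} [Group H] (r : H →* GQ)

theorem isLevel_fullLevel_of_globalLevel {S : Finset Nat.Primes} {N : Subgroup GQ}
    (h : (globalLevel S).IsLevel N) : fullLevel.IsLevel N := by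
  obtain ⟨F, hgal, hF, rfl⟩ := h
  exact ⟨F, hgal, hF.1, rfl⟩

/-- Every structure map `r : H →* G_ℚ` is compatible with `fullLevel` and `levelOf r`. -/
theorem levelCompat_fullLevel : LevelCompat r fullLevel (levelOf r) :=
  levelCompat_comap r fullLevel

/-- Every structure map `r : H →* G_ℚ` is compatible with `globalLevel S` and `levelOf r`. -/
theorem levelCompat_globalLevel (S : Finset Nat.Primes) :
    LevelCompat r (globalLevel S) (levelOf r) :=
  fun N hN => ⟨_, ⟨N, isLevel_fullLevel_of_globalLevel hN, rfl⟩, le_rfl⟩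

variable {k : Type} [Field k] (S : Finset Nat.Primes) (M : Rep k GQ)

/-- The LC `H¹ → H¹` map of `LCBridgeGlobal` is the general one. -/
theorem lcH1ToH1_eq_gen (L : LevelStructure GQ) : lcH1ToH1 M L = lcH1ToH1Gen L M := rfl

/-- (f₂) The Prelude's `locRes₂S` is the LC restriction map. -/
theorem continuousH2Equiv_locRes₂S (x : continuousH2S S M) :
    continuousH2Equiv r (Rep.res r M) (locRes₂S S M r x) =
      lcResH2 M (levelCompat_globalLevel r S) (continuousH2SEquiv M S x) := by
  obtain ⟨c, rfl⟩ := Submodule.mkQ_surjective _ x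
  rfl

theorem locRes₂S_eq_zero_iff (x : continuousH2S S M) :
    locRes₂S S M r x = 0 ↔
      lcResH2 M (levelCompat_globalLevel r S) (continuousH2SEquiv M S x) = 0 := by
  rw [← continuousH2Equiv_locRes₂S, LinearEquiv.map_eq_zero_iff]

/-- (f₁) Mathlib's restriction on `H¹` is the LC restriction map. -/
theorem map_lcH1ToH1 (x : LC.H1 (globalLevel S) M) :
    (groupCohomology.map r (𝟙 (Rep.res r M)) 1).hom (lcH1ToH1 M (globalLevel S) x) =
      lcH1ToH1Gen (levelOf r) (Rep.res r M) (lcResH1 M (levelCompat_globalLevel r S) x) :=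
  map_lcH1ToH1Gen M (levelCompat_globalLevel r S) x

theorem map_lcH1ToH1_eq_zero_iff (x : LC.H1 (globalLevel S) M) :
    (groupCohomology.map r (𝟙 (Rep.res r M)) 1).hom (lcH1ToH1 M (globalLevel S) x) = 0 ↔
      lcResH1 M (levelCompat_globalLevel r S) x = 0 := by
  rw [map_lcH1ToH1, lcH1ToH1Gen_eq_zero_iff]

end Compat

section Sha

variable {k : Type} [Field k] (S : Finset Nat.Primes) (M : Rep k GQ)

/-- Total restriction to the finite places of `S` in level cohomology, degree `1`. -/
noncomputable def lcLocTotal₁ : LC.H1 (globalLevel S) M →ₗ[k]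
    ∀ q : ↥S, LC.H1 (levelOf (primeLocalToGlobal q.1)) (Rep.res (primeLocalToGlobal q.1) M) :=
  LinearMap.pi fun q => lcResH1 M (levelCompat_globalLevel (primeLocalToGlobal q.1) S)

/-- Total restriction to the finite places of `S` in level cohomology, degree `2`. -/
noncomputable def lcLocTotal₂ : LC.H2 (globalLevel S) M →ₗ[k]
    ∀ q : ↥S, LC.H2 (levelOf (primeLocalToGlobal q.1)) (Rep.res (primeLocalToGlobal q.1) M) :=
  LinearMap.pi fun q => lcResH2 M (levelCompat_globalLevel (primeLocalToGlobal q.1) S)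

@[simp] theorem lcLocTotal₁_apply (x : LC.H1 (globalLevel S) M) (q : ↥S) :
    lcLocTotal₁ S M x q = lcResH1 M (levelCompat_globalLevel (primeLocalToGlobal q.1) S) x := rfl

@[simp] theorem lcLocTotal₂_apply (x : LC.H2 (globalLevel S) M) (q : ↥S) :
    lcLocTotal₂ S M x q = lcResH2 M (levelCompat_globalLevel (primeLocalToGlobal q.1) S) x := rfl

/-- The LC Tate–Shafarevich group in degree `1` (finite places of `S` only). -/
noncomputable def shaLC₁ : Submodule k (LC.H1 (globalLevel S) M) :=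
  LinearMap.ker (lcLocTotal₁ S M)

/-- The LC Tate–Shafarevich group in degree `2` (finite places of `S` only). -/
noncomputable def shaLC₂ : Submodule k (LC.H2 (globalLevel S) M) :=
  LinearMap.ker (lcLocTotal₂ S M)

theorem mem_shaLC₁_iff (x : LC.H1 (globalLevel S) M) :
    x ∈ shaLC₁ S M ↔
      ∀ q : ↥S, lcResH1 M (levelCompat_globalLevel (primeLocalToGlobal q.1) S) x = 0 := by
  rw [shaLC₁, LinearMap.mem_ker]
  exact ⟨fun h q => congrFun h q, fun h => funext h⟩

theorem mem_shaLC₂_iff (x : LC.H2 (globalLevel S) M) :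
    x ∈ shaLC₂ S M ↔
      ∀ q : ↥S, lcResH2 M (levelCompat_globalLevel (primeLocalToGlobal q.1) S) x = 0 := by
  rw [shaLC₂, LinearMap.mem_ker]
  exact ⟨fun h q => congrFun h q, fun h => funext h⟩

/-- Total restriction to all places `v ∈ {∞} ∪ S` in level cohomology, degree `1`. -/
noncomputable def lcLocTotalAll₁ : LC.H1 (globalLevel S) M →ₗ[k]
    ∀ v : extArithIndex S, LC.H1 (levelOf (extArithLoc S v)) (Rep.res (extArithLoc S v) M) :=
  LinearMap.pi fun v => lcResH1 M (levelCompat_globalLevel (extArithLoc S v) S)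

/-- Total restriction to all places `v ∈ {∞} ∪ S` in level cohomology, degree `2`. -/
noncomputable def lcLocTotalAll₂ : LC.H2 (globalLevel S) M →ₗ[k]
    ∀ v : extArithIndex S, LC.H2 (levelOf (extArithLoc S v)) (Rep.res (extArithLoc S v) M) :=
  LinearMap.pi fun v => lcResH2 M (levelCompat_globalLevel (extArithLoc S v) S)

/-- The LC Tate–Shafarevich group in degree `1`, all places of `{∞} ∪ S`. -/
noncomputable def shaLCAll₁ : Submodule k (LC.H1 (globalLevel S) M) :=
  LinearMap.ker (lcLocTotalAll₁ S M)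

/-- The LC Tate–Shafarevich group in degree `2`, all places of `{∞} ∪ S`. -/
noncomputable def shaLCAll₂ : Submodule k (LC.H2 (globalLevel S) M) :=
  LinearMap.ker (lcLocTotalAll₂ S M)

theorem shaLCAll₁_le : shaLCAll₁ S M ≤ shaLC₁ S M := by
  intro x hx
  rw [shaLCAll₁, LinearMap.mem_ker] at hx
  exact (mem_shaLC₁_iff S M x).2 fun q => congrFun hx (Sum.inr q)

theorem shaLCAll₂_le : shaLCAll₂ S M ≤ shaLC₂ S M := by
  intro x hx
  rw [shaLCAll₂, LinearMap.mem_ker] at hx
  exact (mem_shaLC₂_iff S M x).2 fun q => congrFun hx (Sum.inr q)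

end Sha

section Odd

variable {p : ℕ} [Fact p.Prime] (S : Finset Nat.Primes) (M : Rep (ZMod p) GQ)

/-- For odd `p` the archimedean LC `H¹` vanishes. -/
theorem subsingleton_lcH1_arch (hp2 : p ≠ 2) :
    Subsingleton (LC.H1 (levelOf archimedeanLoc) (Rep.res archimedeanLoc M)) := by
  have := subsingleton_H1_arch M hp2
  exact (lcH1ToH1Gen_injective (levelOf archimedeanLoc) (Rep.res archimedeanLoc M)).subsingleton

/-- For odd `p` the archimedean LC `H²` vanishes. -/
theorem subsingleton_lcH2_arch (hp2 : p ≠ 2) :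
    Subsingleton (LC.H2 (levelOf archimedeanLoc) (Rep.res archimedeanLoc M)) := by
  have := subsingleton_continuousH2_arch M hp2
  exact (continuousH2Equiv archimedeanLoc (Rep.res archimedeanLoc M)).symm.injective.subsingleton

/-- For odd `p`, the archimedean condition in `shaLCAll₁` is vacuous. -/
theorem shaLCAll₁_eq (hp2 : p ≠ 2) : shaLCAll₁ S M = shaLC₁ S M := by
  refine le_antisymm (shaLCAll₁_le S M) fun x hx => ?_
  rw [shaLCAll₁, LinearMap.mem_ker]
  funext v
  rcases v with v | q
  · have := subsingleton_lcH1_arch M hp2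
    exact Subsingleton.elim
      (α := LC.H1 (levelOf archimedeanLoc) (Rep.res archimedeanLoc M)) _ _
  · exact (mem_shaLC₁_iff S M x).1 hx q

/-- For odd `p`, the archimedean condition in `shaLCAll₂` is vacuous. -/
theorem shaLCAll₂_eq (hp2 : p ≠ 2) : shaLCAll₂ S M = shaLC₂ S M := by
  refine le_antisymm (shaLCAll₂_le S M) fun x hx => ?_
  rw [shaLCAll₂, LinearMap.mem_ker]
  funext v
  rcases v with v | q
  · have := subsingleton_lcH2_arch M hp2
    exact Subsingleton.elim
      (α := LC.H2 (levelOf archimedeanLoc) (Rep.res archimedeanLoc M)) _ _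
  · exact (mem_shaLC₂_iff S M x).1 hx q

/-- For odd `p`, the Prelude's `sha₂` corresponds to `shaLC₂` under `continuousH2SEquiv`. -/
theorem mem_sha₂_iff_mem_shaLC₂ (hp2 : p ≠ 2) (x : continuousH2S S M) :
    x ∈ sha₂ S M ↔ continuousH2SEquiv M S x ∈ shaLC₂ S M := by
  rw [mem_sha₂_iff M S hp2, mem_shaLC₂_iff]
  exact forall_congr' fun q => locRes₂S_eq_zero_iff (primeLocalToGlobal q.1) S M x

theorem sha₂_eq_comap (hp2 : p ≠ 2) :
    sha₂ S M = (shaLC₂ S M).comap (continuousH2SEquiv M S).toLinearMap := by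
  ext x
  exact mem_sha₂_iff_mem_shaLC₂ S M hp2 x

/-- For odd `p`: `sha₂ S M ≃ shaLC₂ S M`. -/
noncomputable def sha₂EquivLC (hp2 : p ≠ 2) : sha₂ S M ≃ₗ[ZMod p] shaLC₂ S M :=
  (LinearEquiv.ofEq _ _ (sha₂_eq_comap S M hp2)).trans
    ((continuousH2SEquiv M S).ofSubmodule' (shaLC₂ S M))

@[simp] theorem coe_sha₂EquivLC (hp2 : p ≠ 2) (x : sha₂ S M) :
    (sha₂EquivLC S M hp2 x : LC.H2 (globalLevel S) M) = continuousH2SEquiv M S x := rfl

/-- For odd `p`, the Prelude's `sha₁` is the image of `shaLC₁` in `H¹`. -/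
theorem map_shaLC₁ (hp2 : p ≠ 2) :
    (shaLC₁ S M).map (lcH1ToH1 M (globalLevel S)) = sha₁ S M := by
  ext y
  rw [mem_sha₁_iff M S hp2, Submodule.mem_map]
  constructor
  · rintro ⟨x, hx, rfl⟩
    refine ⟨?_, fun q => ?_⟩
    · rw [← range_lcH1ToH1]
      exact ⟨x, rfl⟩
    · exact (map_lcH1ToH1_eq_zero_iff (primeLocalToGlobal q.1) S M x).2
        ((mem_shaLC₁_iff S M x).1 hx q)
  · rintro ⟨hy, h⟩
    rw [← range_lcH1ToH1] at hy
    obtain ⟨x, rfl⟩ := hy
    refine ⟨x, (mem_shaLC₁_iff S M x).2 fun q => ?_, rfl⟩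
    exact (map_lcH1ToH1_eq_zero_iff (primeLocalToGlobal q.1) S M x).1 (h q)

/-- For odd `p`: `shaLC₁ S M ≃ sha₁ S M`. -/
noncomputable def sha₁EquivLC (hp2 : p ≠ 2) : shaLC₁ S M ≃ₗ[ZMod p] sha₁ S M :=
  (Submodule.equivMapOfInjective _ (lcH1ToH1_injective M (globalLevel S)) (shaLC₁ S M)).trans
    (LinearEquiv.ofEq _ _ (map_shaLC₁ S M hp2))

@[simp] theorem coe_sha₁EquivLC (hp2 : p ≠ 2) (x : shaLC₁ S M) :
    (sha₁EquivLC S M hp2 x : H1 M) = lcH1ToH1 M (globalLevel S) x := rfl

end Odd

end Fermat.Agent.S55
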