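import Fermat.Agent.S55.PTGlue
import Fermat.Agent.CFT.PT.RepZSha

/-!
# S55 from an additive equivalence `Ш²(M) ≃+ Hom(Ш¹(M'), ℤ/p)` (glue without finiteness)

`s55_of_shaZ_addEquiv`: an additive equivalence between the `ℤ`-form Tate–Shafarevich group
`PT.shaZ₂ S M` and the additive dual of `PT.shaZ₁ S (M.dualTwist (cycloChar p))` gives the frozen
statement S55.  No finiteness is needed: the pairing `B y x := e x y` is nondegenerate on the right
because `e` is injective, and on the left because `e` is surjective and the characters of an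
`𝔽_p`-vector space separate its points.
-/

set_option autoImplicit false

open CategoryTheory Module groupCohomology ExtCitation
open Fermat.Agent.CFT

namespace Fermat.Agent.S55

local notation "GQ" => (AlgebraicClosure ℚ ≃ₐ[ℚ] AlgebraicClosure ℚ)

section Abstract

variable {p : ℕ} [Fact p.Prime]

/-- The scalar action of `ZMod p` through the natural-number multiples. -/
theorem zmod_smul_eq_val_nsmul {V : Type*} [AddCommGroup V] [Module (ZMod p) V] (c : ZMod p)
    (v : V) : c • v = c.val • v := by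
  rw [← Nat.cast_smul_eq_nsmul (ZMod p), ZMod.natCast_zmod_val]

/-- **Pairing from an additive equivalence with the additive dual** (no finiteness): for
`𝔽_p`-vector spaces `V₁`, `V₂` and additive groups `Z₁ ≃+ V₁`, `Z₂ ≃+ V₂`, an additive equivalence
`Z₂ ≃+ (Z₁ →+ ℤ/p)` gives a bilinear pairing `V₁ × V₂ → 𝔽_p` nondegenerate on both sides. -/
theorem exists_pairing_of_addEquiv_dual {V₁ V₂ Z₁ Z₂ : Type*} [AddCommGroup V₁]
    [Module (ZMod p) V₁] [AddCommGroup V₂] [Module (ZMod p) V₂] [AddCommGroup Z₁]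
    [AddCommGroup Z₂] (E₁ : V₁ ≃+ Z₁) (E₂ : V₂ ≃+ Z₂) (e : Z₂ ≃+ (Z₁ →+ ZMod p)) :
    ∃ B : V₁ →ₗ[ZMod p] V₂ →ₗ[ZMod p] ZMod p,
      (∀ y, (∀ x, B y x = 0) → y = 0) ∧ (∀ x, (∀ y, B y x = 0) → x = 0) := by
  let B : V₁ →ₗ[ZMod p] V₂ →ₗ[ZMod p] ZMod p :=
    LinearMap.mk₂ (ZMod p) (fun y x => e (E₂ x) (E₁ y))
      (fun y y' x => by simp only [map_add])
      (fun c y x => by
        show e (E₂ x) (E₁ (c • y)) = c • e (E₂ x) (E₁ y)
        rw [zmod_smul_eq_val_nsmul c y, zmod_smul_eq_val_nsmul c (e (E₂ x) (E₁ y)), map_nsmul,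
          map_nsmul])
      (fun y x x' => by simp only [map_add, AddMonoidHom.add_apply])
      (fun c y x => by
        show e (E₂ (c • x)) (E₁ y) = c • e (E₂ x) (E₁ y)
        rw [zmod_smul_eq_val_nsmul c x, zmod_smul_eq_val_nsmul c (e (E₂ x) (E₁ y)), map_nsmul,
          map_nsmul]
        rfl)
  have hB : ∀ y x, B y x = e (E₂ x) (E₁ y) := fun y x => rfl
  refine ⟨B, fun y hy => ?_, fun x hx => ?_⟩
  · rw [← Module.forall_dual_apply_eq_zero_iff (ZMod p)]
    intro ψ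
    let φ : Z₁ →+ ZMod p := ψ.toAddMonoidHom.comp E₁.symm.toAddMonoidHom
    obtain ⟨x', hx'⟩ := e.surjective φ
    have h := hy (E₂.symm x')
    rw [hB, AddEquiv.apply_symm_apply, hx'] at h
    have h2 : φ (E₁ y) = ψ y := by
      show ψ (E₁.symm (E₁ y)) = ψ y
      rw [AddEquiv.symm_apply_apply]
    rw [← h2, h]
  · have h0 : e (E₂ x) = 0 := by
      ext y'
      have h := hx (E₁.symm y')
      rw [hB, AddEquiv.apply_symm_apply] at h
      rw [h]
      rfl
    have h1 : E₂ x = 0 := e.map_eq_zero_iff.1 h0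
    exact E₂.map_eq_zero_iff.1 h1

end Abstract

variable {p : ℕ} [Fact p.Prime] (S : Finset Nat.Primes) (M : Rep (ZMod p) GQ)

/-- **S55 from the additive Poitou–Tate equivalence** `Ш²_S(M) ≃+ Hom(Ш¹_S(M'), ℤ/p)` for the
`ℤ`-form Tate–Shafarevich groups of `PT/RepZSha.lean` (`M' = M.dualTwist (cycloChar p)`). -/
theorem s55_of_shaZ_addEquiv (hp2 : p ≠ 2)
    (e : ↥(PT.shaZ₂ S M) ≃+ (↥(PT.shaZ₁ S (M.dualTwist (cycloChar p))) →+ ZMod p)) :
    ∃ B : sha₁ S (M.dualTwist (cycloChar p)) →ₗ[ZMod p] sha₂ S M →ₗ[ZMod p] ZMod p,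
      (∀ y, (∀ x, B y x = 0) → y = 0) ∧ (∀ x, (∀ y, B y x = 0) → x = 0) := by
  obtain ⟨B, hB₁, hB₂⟩ := exists_pairing_of_addEquiv_dual
    (PT.shaLC₁EquivZ S (M.dualTwist (cycloChar p))) (PT.shaLC₂EquivZ S M) e
  exact s55_of_LC_pairing S M hp2 B hB₁ hB₂

end Fermat.Agent.S55
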