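import Fermat.Statements.S55

/-!
# S55, end piece (E1): the statement follows from finite-dimensionality of the two
Tate–Shafarevich groups together with equality of their dimensions.
-/

set_option autoImplicit false
open CategoryTheory Module groupCohomology ExtCitation

namespace Fermat.Agent.S55

/-- Two finite-dimensional spaces of the same dimension admit a pairing which is
nondegenerate on both sides. -/
theorem exists_pairing_of_finrank_eq {k : Type*} [Field k] {V W : Type*}
    [AddCommGroup V] [Module k V] [AddCommGroup W] [Module k W]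
    [FiniteDimensional k V] [FiniteDimensional k W]
    (h : finrank k V = finrank k W) :
    ∃ B : V →ₗ[k] W →ₗ[k] k,
      (∀ y, (∀ x, B y x = 0) → y = 0) ∧ (∀ x, (∀ y, B y x = 0) → x = 0) := by
  have h' : finrank k V = finrank k (Module.Dual k W) := by
    rw [h, Subspace.dual_finrank_eq]
  let e : V ≃ₗ[k] Module.Dual k W := LinearEquiv.ofFinrankEq V (Module.Dual k W) h'
  refine ⟨e.toLinearMap, fun y hy => ?_, fun x hx => ?_⟩
  · have : e y = 0 := LinearMap.ext fun x => hy x
    exact e.map_eq_zero_iff.1 this
  · refine (Module.forall_dual_apply_eq_zero_iff k x).1 fun f => ?_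
    have := hx (e.symm f)
    simpa using this

/-- **S55 from dimensions**: it suffices to prove that `sha₁` of the Tate twist of the dual and
`sha₂` are finite-dimensional of the same dimension. -/
theorem result_of_finrank_eq
    {p : ℕ} [Fact p.Prime] (S : Finset Nat.Primes)
    (M : Rep (ZMod p) (AlgebraicClosure ℚ ≃ₐ[ℚ] AlgebraicClosure ℚ))
    (h1 : FiniteDimensional (ZMod p) (sha₁ S (M.dualTwist (cycloChar p))))
    (h2 : FiniteDimensional (ZMod p) (sha₂ S M))
    (h : finrank (ZMod p) (sha₁ S (M.dualTwist (cycloChar p))) = finrank (ZMod p) (sha₂ S M)) :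
    ∃ B : sha₁ S (M.dualTwist (cycloChar p)) →ₗ[ZMod p] sha₂ S M →ₗ[ZMod p] ZMod p,
      (∀ y, (∀ x, B y x = 0) → y = 0) ∧ (∀ x, (∀ y, B y x = 0) → x = 0) :=
  exists_pairing_of_finrank_eq h

end Fermat.Agent.S55
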