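import Fermat.Agent.S55.LCBridgeCompat
import Fermat.Agent.S55.CycloUnram
import Fermat.Agent.S55.Assembly

/-!
# S55 bridge (D5a), final part: S55 from level cohomology

* smoothness of `M` and of its Tate-twisted dual for `globalLevel S`, and of their restrictions to
  the local groups;
* `s55_of_LC`: the frozen statement S55 follows from finite-dimensionality and equality of the
  dimensions of the LC Tate–Shafarevich groups `shaLC₁ S (M.dualTwist χ)` and `shaLC₂ S M`;
* `s55_of_LC_pairing`: ... or from a pairing between them which is nondegenerate on both sides.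
-/

set_option autoImplicit false
set_option linter.style.haveILetI false

open CategoryTheory Module groupCohomology ExtCitation
open Fermat.Agent.CFT Fermat.Agent.S54.FrobExists

namespace Fermat.Agent.S55

local notation "Qb" => AlgebraicClosure ℚ
local notation "GQ" => (AlgebraicClosure ℚ ≃ₐ[ℚ] AlgebraicClosure ℚ)

variable {p : ℕ} [Fact p.Prime] (S : Finset Nat.Primes) (M : Rep (ZMod p) GQ)

/-- (d) The Tate twist of the dual of a finite-dimensional representation with open stabilisers,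
unramified outside `S ∋ p`, is smooth for `globalLevel S`; more precisely a single level acts
trivially on both `M` and `M.dualTwist (cycloChar p)`. -/
theorem exists_level_forall_rho_eq_one [FiniteDimensional (ZMod p) M] (hpS : pPrime p ∈ S)
    (hsm : ∀ m : M, ∃ F : IntermediateField ℚ Qb, FiniteDimensional ℚ F ∧
      ∀ s ∈ F.fixingSubgroup, M.ρ s m = m)
    (hMur : ∀ q : Nat.Primes, q ∉ S → ∀ A : ValuationSubring Qb,
      A.LiesOverPrime (q : ℕ) → ∀ g ∈ A.inertiaSubgroupIn ℚ, M.ρ g = 1) :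
    ∃ N : Subgroup GQ, (globalLevel S).IsLevel N ∧ (∀ s ∈ N, M.ρ s = 1) ∧
      ∀ s ∈ N, (M.dualTwist (cycloChar p)).ρ s = 1 := by
  obtain ⟨F₀, hF₀S, -, hF₀⟩ := exists_isGalois_isUnramifiedOutside_forall_rho_eq_one M S hsm hMur
  obtain ⟨F, -, hFS, hF1, hF2⟩ := exists_forall_dualTwist_rho_eq_one M hF₀ S hpS hF₀S
  obtain ⟨E, hFE, -, hES, hgal⟩ := exists_isGalois_isUnramifiedOutside_ge hFS hFS
  refine ⟨_, ⟨E, hgal, hES, rfl⟩, fun s hs => ?_, fun s hs => ?_⟩
  · exact hF1 s (IntermediateField.fixingSubgroup_antitone hFE hs)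
  · exact hF2 s (IntermediateField.fixingSubgroup_antitone hFE hs)

theorem isSmooth_globalLevel_dualTwist [FiniteDimensional (ZMod p) M] (hpS : pPrime p ∈ S)
    (hsm : ∀ m : M, ∃ F : IntermediateField ℚ Qb, FiniteDimensional ℚ F ∧
      ∀ s ∈ F.fixingSubgroup, M.ρ s m = m)
    (hMur : ∀ q : Nat.Primes, q ∉ S → ∀ A : ValuationSubring Qb,
      A.LiesOverPrime (q : ℕ) → ∀ g ∈ A.inertiaSubgroupIn ℚ, M.ρ g = 1) :
    IsSmooth (globalLevel S) (M.dualTwist (cycloChar p)) := by
  obtain ⟨N, hN, -, h⟩ := exists_level_forall_rho_eq_one S M hpS hsm hMur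
  intro a
  refine ⟨N, hN, fun g hg => ?_⟩
  rw [h g hg, Module.End.one_apply]

/-- Restrictions to the local groups of modules smooth for `globalLevel S` are smooth. -/
theorem isSmooth_levelOf_res_of_globalLevel {k : Type} [Field k] {H : Type} [Group H]
    (r : H →* GQ) {A : Rep k GQ} (hA : IsSmooth (globalLevel S) A) :
    IsSmooth (levelOf r) (Rep.res r A) :=
  LevelCompat.isSmooth_res (k := k) (f := r) (L := globalLevel S) (L' := levelOf r)
    (levelCompat_globalLevel r S) (A := A) hA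

/-- Transport of a pairing which is nondegenerate on both sides along linear equivalences. -/
theorem exists_pairing_of_equiv {k : Type*} [Field k] {V V' W W' : Type*}
    [AddCommGroup V] [Module k V] [AddCommGroup V'] [Module k V']
    [AddCommGroup W] [Module k W] [AddCommGroup W'] [Module k W']
    (e₁ : V' ≃ₗ[k] V) (e₂ : W ≃ₗ[k] W') (B : V' →ₗ[k] W' →ₗ[k] k)
    (hB₁ : ∀ y, (∀ x, B y x = 0) → y = 0) (hB₂ : ∀ x, (∀ y, B y x = 0) → x = 0) :
    ∃ B : V →ₗ[k] W →ₗ[k] k,
      (∀ y, (∀ x, B y x = 0) → y = 0) ∧ (∀ x, (∀ y, B y x = 0) → x = 0) := by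
  refine ⟨(B.compl₁₂ e₁.symm.toLinearMap e₂.toLinearMap), fun y hy => ?_, fun x hx => ?_⟩
  · have : e₁.symm y = 0 := hB₁ _ fun x => by
      have := hy (e₂.symm x)
      simpa [LinearMap.compl₁₂_apply] using this
    exact e₁.symm.map_eq_zero_iff.1 this
  · have : e₂ x = 0 := hB₂ _ fun y => by
      have := hx (e₁ y)
      simpa [LinearMap.compl₁₂_apply] using this
    exact e₂.map_eq_zero_iff.1 this

/-- **S55 from level cohomology, pairing form**: a pairing between the LC Tate–Shafarevich groups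
which is nondegenerate on both sides gives the frozen statement. -/
theorem s55_of_LC_pairing (hp2 : p ≠ 2)
    (B : shaLC₁ S (M.dualTwist (cycloChar p)) →ₗ[ZMod p] shaLC₂ S M →ₗ[ZMod p] ZMod p)
    (hB₁ : ∀ y, (∀ x, B y x = 0) → y = 0) (hB₂ : ∀ x, (∀ y, B y x = 0) → x = 0) :
    ∃ B : sha₁ S (M.dualTwist (cycloChar p)) →ₗ[ZMod p] sha₂ S M →ₗ[ZMod p] ZMod p,
      (∀ y, (∀ x, B y x = 0) → y = 0) ∧ (∀ x, (∀ y, B y x = 0) → x = 0) :=
  exists_pairing_of_equiv (sha₁EquivLC S (M.dualTwist (cycloChar p)) hp2) (sha₂EquivLC S M hp2)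
    B hB₁ hB₂

/-- **S55 from level cohomology, dimension form**: it suffices that the LC Tate–Shafarevich groups
`shaLC₁ S (M.dualTwist χ)` and `shaLC₂ S M` are finite-dimensional of the same dimension. -/
theorem s55_of_LC (hp2 : p ≠ 2)
    (h1 : FiniteDimensional (ZMod p) (shaLC₁ S (M.dualTwist (cycloChar p))))
    (h2 : FiniteDimensional (ZMod p) (shaLC₂ S M))
    (h : finrank (ZMod p) (shaLC₁ S (M.dualTwist (cycloChar p))) =
      finrank (ZMod p) (shaLC₂ S M)) :
    ∃ B : sha₁ S (M.dualTwist (cycloChar p)) →ₗ[ZMod p] sha₂ S M →ₗ[ZMod p] ZMod p,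
      (∀ y, (∀ x, B y x = 0) → y = 0) ∧ (∀ x, (∀ y, B y x = 0) → x = 0) := by
  obtain ⟨B, hB₁, hB₂⟩ := exists_pairing_of_finrank_eq h
  exact s55_of_LC_pairing S M hp2 B hB₁ hB₂

/-- The same with the archimedean place included in the local conditions. -/
theorem s55_of_LCAll (hp2 : p ≠ 2)
    (h1 : FiniteDimensional (ZMod p) (shaLCAll₁ S (M.dualTwist (cycloChar p))))
    (h2 : FiniteDimensional (ZMod p) (shaLCAll₂ S M))
    (h : finrank (ZMod p) (shaLCAll₁ S (M.dualTwist (cycloChar p))) =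
      finrank (ZMod p) (shaLCAll₂ S M)) :
    ∃ B : sha₁ S (M.dualTwist (cycloChar p)) →ₗ[ZMod p] sha₂ S M →ₗ[ZMod p] ZMod p,
      (∀ y, (∀ x, B y x = 0) → y = 0) ∧ (∀ x, (∀ y, B y x = 0) → x = 0) := by
  rw [shaLCAll₁_eq S _ hp2] at h1 h
  rw [shaLCAll₂_eq S _ hp2] at h2 h
  exact s55_of_LC S M hp2 h1 h2 h

end Fermat.Agent.S55
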