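import Fermat.Agent.S55.LCBridgeGlobal

/-!
# S55 bridge (D5a), local part: for `r : H →* G_ℚ` the Prelude's level-constant cochains
(`IsLevelConstant₁ r`, `IsLevelConstant₂ r`) are the LC cochains of the level structure
`fullLevel.comap r` on `H`; the Prelude's `continuousH2 r` is `LC.H2 (fullLevel.comap r)`.
-/

set_option autoImplicit false
set_option linter.style.haveILetI false

open CategoryTheory Module groupCohomology ExtCitation
open Fermat.Agent.CFT Fermat.Agent.S54.FrobExists

namespace Fermat.Agent.S55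

local notation "Qb" => AlgebraicClosure ℚ
local notation "GQ" => (AlgebraicClosure ℚ ≃ₐ[ℚ] AlgebraicClosure ℚ)

section Local

local instance instIsAlgClosureQbLC' : IsAlgClosure ℚ Qb := AlgebraicClosure.instIsAlgClosure ℚ
local instance instIsGaloisQbLC' : IsGalois ℚ Qb := isGalois_rat_algebraicClosure

variable {H : Type} [Group H] (r : H →* GQ)

/-- The level structure on `H` pulled back from all finite Galois levels of `G_ℚ`. -/
noncomputable def levelOf : LevelStructure H := fullLevel.comap r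

/-- Every finite subextension is contained in a finite Galois one. -/
theorem exists_isGalois_ge (F : IntermediateField ℚ Qb) [FiniteDimensional ℚ F] :
    ∃ E : IntermediateField ℚ Qb, F ≤ E ∧ IsGalois ℚ E ∧ FiniteDimensional ℚ E :=
  ⟨IntermediateField.normalClosure ℚ F Qb, IntermediateField.le_normalClosure _,
    isGalois_of_normal _ inferInstance, inferInstance⟩

/-- (c₁') -/
theorem isLevelConstant₁_iff {X : Type*} (f : H → X) :
    IsLevelConstant₁ r f ↔ (levelOf r).IsLC₁ f := by
  constructor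
  · rintro ⟨F, hF, h⟩
    haveI := hF
    obtain ⟨E, hFE, hgal, hfd⟩ := exists_isGalois_ge F
    refine ⟨_, ⟨_, ⟨E, hgal, hfd, rfl⟩, rfl⟩, fun g s hs => h g s ?_⟩
    exact IntermediateField.fixingSubgroup_antitone hFE hs
  · rintro ⟨_, ⟨_, ⟨F, -, hF, rfl⟩, rfl⟩, h⟩
    exact ⟨F, hF, fun g s hs => h g s hs⟩

/-- (c₂') -/
theorem isLevelConstant₂_iff {X : Type*} (f : H × H → X) :
    IsLevelConstant₂ r f ↔ (levelOf r).IsLC₂ f := by
  constructor
  · rintro ⟨F, hF, h⟩
    haveI := hF
    obtain ⟨E, hFE, hgal, hfd⟩ := exists_isGalois_ge F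
    refine ⟨_, ⟨_, ⟨E, hgal, hfd, rfl⟩, rfl⟩, fun g g' s hs s' hs' => h g g' s s' ?_ ?_⟩
    · exact IntermediateField.fixingSubgroup_antitone hFE hs
    · exact IntermediateField.fixingSubgroup_antitone hFE hs'
  · rintro ⟨_, ⟨_, ⟨F, -, hF, rfl⟩, rfl⟩, h⟩
    exact ⟨F, hF, fun g g' s s' hs hs' => h g g' s hs s' hs'⟩

variable {k : Type} [Field k]

/-- (d') The restriction along `r` of a representation of `G_ℚ` with open stabilisers is smooth
for `levelOf r`. -/
theorem isSmooth_levelOf_res (M : Rep k GQ)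
    (hsm : ∀ m : M, ∃ F : IntermediateField ℚ Qb, FiniteDimensional ℚ F ∧
      ∀ s ∈ F.fixingSubgroup, M.ρ s m = m) :
    IsSmooth (levelOf r) (Rep.res r M) := by
  intro a
  obtain ⟨F, hF, h⟩ := hsm a
  haveI := hF
  obtain ⟨E, hFE, hgal, hfd⟩ := exists_isGalois_ge F
  refine ⟨_, ⟨_, ⟨E, hgal, hfd, rfl⟩, rfl⟩, fun g hg => ?_⟩
  exact h (r g) (IntermediateField.fixingSubgroup_antitone hFE hg)

variable (A : Rep k H)

theorem levelCochains₁_eq : levelCochains₁ r A = LC.C₁ (levelOf r) A := by
  ext f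
  exact isLevelConstant₁_iff r f

theorem levelCochains₂_eq : levelCochains₂ r A = LC.C₂ (levelOf r) A := by
  ext f
  exact isLevelConstant₂_iff r f

theorem levelCocycles₂_eq : levelCocycles₂ r A = LC.Z₂ (levelOf r) A := by
  rw [levelCocycles₂, LC.Z₂, levelCochains₂_eq]

theorem levelCoboundaries₂_eq : levelCoboundaries₂ r A = LC.B₂ (levelOf r) A := by
  rw [levelCoboundaries₂, LC.B₂, levelCochains₁_eq]

/-- (e₂') The Prelude's `continuousH2 r` is the level cohomology `LC.H2 (levelOf r)`. -/
noncomputable def continuousH2Equiv : continuousH2 r A ≃ₗ[k] LC.H2 (levelOf r) A :=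
  Submodule.Quotient.equiv _ _ (LinearEquiv.ofEq _ _ (levelCocycles₂_eq r A)) (by
    ext x
    simp only [Submodule.mem_map, Submodule.mem_comap, Submodule.subtype_apply]
    constructor
    · rintro ⟨y, hy, rfl⟩
      rw [levelCoboundaries₂_eq] at hy
      exact hy
    · intro hx
      refine ⟨(LinearEquiv.ofEq _ _ (levelCocycles₂_eq r A)).symm x, ?_,
        LinearEquiv.apply_symm_apply _ x⟩
      rw [levelCoboundaries₂_eq]
      exact hx)

@[simp]
theorem continuousH2Equiv_mk (c : ↥(levelCocycles₂ r A)) :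
    continuousH2Equiv r A (continuousH2π r A c) =
      LC.H2π (levelOf r) A ⟨c.1, (levelCocycles₂_eq r A) ▸ c.2⟩ := rfl

end Local

end Fermat.Agent.S55
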