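import Fermat.Prelude.Def_GroupCohomology_ContinuousUnramified
import Fermat.Agent.S14.TransCore

/-!
# S55/S56 bridge, piece (B6): the image of the local Galois group is the decomposition group

For a prime `q`, the Prelude embeds `ℚ̄` into `ℚ̄_q = PadicAlgCl q` (`padicEmbedding q`), defines the
place `padicPlace q` of `ℚ̄` and the map `localGaloisToGlobal q : G_{ℚ_q} → G_ℚ`, whose image lies
in the decomposition group of `padicPlace q`.  We show the converse at every finite level: every
element of the decomposition group agrees, on any given finite extension `E/ℚ`, with the image of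
an element of `G_{ℚ_q}`.
-/

set_option autoImplicit false
set_option linter.style.haveILetI false

open scoped NNReal Pointwise
open Polynomial

namespace Fermat.Agent.S55

local notation "Qb" => AlgebraicClosure ℚ
local notation "GQ" => (AlgebraicClosure ℚ ≃ₐ[ℚ] AlgebraicClosure ℚ)

variable (q : ℕ) [hq : Fact q.Prime]

/-- The absolute value on `ℚ̄` induced by `padicEmbedding q`. -/
noncomputable def padicAbs : AbsoluteValue Qb ℝ where
  toFun x := ‖padicEmbedding q x‖
  map_mul' x y := by rw [map_mul, norm_mul]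
  nonneg' x := norm_nonneg _
  eq_zero' x := by rw [norm_eq_zero, map_eq_zero]
  add_le' x y := by rw [map_add]; exact norm_add_le _ _

theorem padicAbs_apply (x : Qb) : padicAbs q x = ‖padicEmbedding q x‖ := rfl

theorem padicAbs_natCast_self : padicAbs q (q : Qb) = (q : ℝ)⁻¹ := by
  rw [padicAbs_apply, map_natCast]
  have : ((q : PadicAlgCl q)) = ((q : ℚ_[q]) : PadicAlgCl q) := by simp
  rw [this, PadicAlgCl.norm_extends, Padic.norm_p]

theorem mem_padicPlace_iff_padicAbs {x : Qb} : x ∈ padicPlace q ↔ padicAbs q x ≤ 1 := by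
  rw [mem_padicPlace_iff, padicAbs_apply, ← NNReal.coe_le_coe]
  rfl

theorem padicAbs_lt_one_iff (x : Qb) :
    padicAbs q x < 1 ↔ x = 0 ∨ x⁻¹ ∉ padicPlace q := by
  rcases eq_or_ne x 0 with rfl | hx
  · simp
  · simp only [hx, false_or]
    rw [mem_padicPlace_iff_padicAbs, map_inv₀, not_le, one_lt_inv₀ ((padicAbs q).pos hx)]

/-- Elements of the decomposition group of `padicPlace q` preserve the `q`-adic absolute value. -/
theorem padicAbs_apply_of_mem_decompositionSubgroup {σ : GQ}
    (hσ : σ ∈ (padicPlace q).decompositionSubgroup ℚ) (x : Qb) :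
    padicAbs q (σ x) = padicAbs q x := by
  -- the absolute value `w = v ∘ σ`
  let w : AbsoluteValue Qb ℝ := (padicAbs q).comp (f := (σ : Qb →+* Qb)) σ.injective
  have hw : ∀ y, w y = padicAbs q (σ y) := fun y => rfl
  have hσ' : σ • padicPlace q = padicPlace q := hσ
  have hmem : ∀ y : Qb, σ y ∈ padicPlace q ↔ y ∈ padicPlace q := by
    intro y
    conv_lhs => rw [← hσ', ValuationSubring.mem_pointwise_smul_iff_inv_smul_mem]
    show σ⁻¹ (σ y) ∈ _ ↔ _
    rw [show σ⁻¹ (σ y) = y from σ.symm_apply_apply y]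
  have hequiv : (padicAbs q).IsEquiv w := by
    rw [AbsoluteValue.isEquiv_iff_lt_one_iff]
    intro y
    rw [hw, padicAbs_lt_one_iff, padicAbs_lt_one_iff, ← map_inv₀, hmem, map_eq_zero]
  obtain ⟨c, hc, hcw⟩ := AbsoluteValue.isEquiv_iff_exists_rpow_eq.1 hequiv
  have hq' : (1 : ℝ) < q := by exact_mod_cast hq.out.one_lt
  have hcq := congrFun hcw (q : Qb)
  simp only [hw, map_natCast] at hcq
  rw [padicAbs_natCast_self] at hcq
  -- hence `c = 1`
  have hc1 : c = 1 := by
    have hpos : (0 : ℝ) < (q : ℝ)⁻¹ := inv_pos.2 (by linarith)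
    have hlog : Real.log ((q : ℝ)⁻¹) ≠ 0 := by
      rw [Real.log_inv, neg_ne_zero]
      exact (Real.log_pos hq').ne'
    have := congrArg Real.log hcq
    rw [Real.log_rpow hpos] at this
    exact mul_right_cancel₀ hlog (by rw [this, one_mul])
  have := congrFun hcw x
  rw [hc1] at this
  simp only [Real.rpow_one] at this
  rw [← hw, ← this]

/-- `σ` in the decomposition group preserves the norm of every `ℚ_q`-linear combination of powers
of `ι a` (continuity + density of `ℚ` in `ℚ_q`). -/
theorem norm_sum_smul_pow_eq {σ : GQ} (hσ : σ ∈ (padicPlace q).decompositionSubgroup ℚ)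
    (a : Qb) (n : ℕ) (c : Fin n → ℚ_[q]) :
    ‖∑ i, c i • (padicEmbedding q (σ a)) ^ (i : ℕ)‖ =
      ‖∑ i, c i • (padicEmbedding q a) ^ (i : ℕ)‖ := by
  have hcont : ∀ y : PadicAlgCl q,
      Continuous fun c : Fin n → ℚ_[q] => ‖∑ i, c i • y ^ (i : ℕ)‖ := fun y =>
    continuous_norm.comp (continuous_finsetSum _ fun i _ =>
      (continuous_apply i).smul continuous_const)
  have hdense : DenseRange (Pi.map fun _ : Fin n => ((↑) : ℚ → ℚ_[q])) :=
    DenseRange.piMap fun _ => Padic.denseRange_ratCast q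
  have key := Continuous.ext_on hdense (hcont (padicEmbedding q (σ a)))
    (hcont (padicEmbedding q a)) ?_
  · exact congrFun key c
  · rintro _ ⟨r, rfl⟩
    have h : ∀ b : Qb, ∑ i, (Pi.map (fun _ : Fin n => ((↑) : ℚ → ℚ_[q])) r) i •
        (padicEmbedding q b) ^ (i : ℕ) = padicEmbedding q (∑ i, (r i : Qb) * b ^ (i : ℕ)) := by
      intro b
      rw [map_sum]
      refine Finset.sum_congr rfl fun i _ => ?_
      rw [map_mul, map_pow, map_ratCast, Pi.map_apply, Algebra.smul_def, map_ratCast]
    show ‖_‖ = ‖_‖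
    rw [h, h, ← padicAbs_apply, ← padicAbs_apply]
    have : ∑ i, (r i : Qb) * (σ a) ^ (i : ℕ) = σ (∑ i, (r i : Qb) * a ^ (i : ℕ)) := by
      rw [map_sum]
      refine Finset.sum_congr rfl fun i _ => ?_
      rw [map_mul, map_pow, map_ratCast]
    rw [this, padicAbs_apply_of_mem_decompositionSubgroup q hσ]

/-- `ι a` and `ι (σ a)` are conjugate over `ℚ_q` for `σ` in the decomposition group. -/
theorem aeval_minpoly_eq_zero_of_mem_decompositionSubgroup {σ : GQ}
    (hσ : σ ∈ (padicPlace q).decompositionSubgroup ℚ) (a : Qb) :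
    aeval (padicEmbedding q (σ a)) (minpoly ℚ_[q] (padicEmbedding q a)) = 0 := by
  set g := minpoly ℚ_[q] (padicEmbedding q a) with hg
  have h0 : aeval (padicEmbedding q a) g = 0 := minpoly.aeval _ _
  rw [aeval_eq_sum_range, Finset.sum_range] at h0 ⊢
  have := norm_sum_smul_pow_eq q hσ a (g.natDegree + 1) fun i => g.coeff i
  rw [h0, norm_zero, norm_eq_zero] at this
  exact this

/-- A finite extension of `ℚ` inside `ℚ̄` is generated by one element. -/
theorem exists_eq_adjoin_simple (E : IntermediateField ℚ Qb) [FiniteDimensional ℚ E] :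
    ∃ a : Qb, E = IntermediateField.adjoin ℚ {a} := by
  have key : ∀ (inst : Algebra ℚ ↥E), inst = E.algebra' →
      (∃ α : E, @IntermediateField.adjoin ℚ _ E _ inst {α} = ⊤) →
      ∃ a : Qb, E = IntermediateField.adjoin ℚ {a} := by
    rintro _ rfl ⟨α, hα⟩
    refine ⟨(α : Qb), ?_⟩
    have := congrArg IntermediateField.lift hα
    rw [IntermediateField.lift_adjoin_simple, IntermediateField.lift_top] at this
    exact this.symm
  exact key _ (Subsingleton.elim _ _) (Field.exists_primitive_element ℚ E)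

/-- **The image of `G_{ℚ_q}` is dense in the decomposition group**: every element of the
decomposition group of `padicPlace q` agrees on any finite extension `E/ℚ` with the image of an
element of the local Galois group. -/
theorem exists_localGaloisToGlobal_eq_on {σ : GQ}
    (hσ : σ ∈ (padicPlace q).decompositionSubgroup ℚ)
    (E : IntermediateField ℚ Qb) [FiniteDimensional ℚ E] :
    ∃ τ : PadicAlgCl q ≃ₐ[ℚ_[q]] PadicAlgCl q, ∀ x ∈ E, localGaloisToGlobal q τ x = σ x := by
  -- primitive element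
  obtain ⟨a, hE⟩ := exists_eq_adjoin_simple E
  have halg : IsAlgebraic ℚ_[q] (padicEmbedding q a) :=
    Algebra.IsAlgebraic.isAlgebraic _
  obtain ⟨τ, hτ⟩ := minpoly.exists_algEquiv_of_root' halg
    (aeval_minpoly_eq_zero_of_mem_decompositionSubgroup q hσ a)
  refine ⟨τ, ?_⟩
  have h1 : localGaloisToGlobal q τ a = σ a := by
    apply (padicEmbedding q).toRingHom.injective
    show padicEmbedding q _ = padicEmbedding q _
    rw [padicEmbedding_localGaloisToGlobal, hτ]
  -- the two automorphisms agree on `ℚ(a) = E`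
  intro x hx
  rw [hE] at hx
  induction hx using IntermediateField.adjoin_induction with
  | mem y hy =>
    have : y = a := hy
    rw [this, h1]
  | algebraMap r => rw [AlgEquiv.commutes, AlgEquiv.commutes]
  | add y z _ _ hy hz => rw [map_add, map_add, hy, hz]
  | inv y _ hy => rw [map_inv₀, map_inv₀, hy]
  | mul y z _ _ hy hz => rw [map_mul, map_mul, hy, hz]

/-- `padicPlace q` lies over `q`. -/
theorem padicPlace_liesOverPrime : (padicPlace q).LiesOverPrime q := by
  unfold ValuationSubring.LiesOverPrime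
  rw [ValuationSubring.mem_nonunits_iff_exists_mem_maximalIdeal]
  have hq' : (1 : ℝ) < q := by exact_mod_cast hq.out.one_lt
  have hlt : padicAbs q (q : Qb) < 1 := by
    rw [padicAbs_natCast_self]
    exact inv_lt_one_of_one_lt₀ hq'
  have hmem : (q : Qb) ∈ padicPlace q := (mem_padicPlace_iff_padicAbs q).2 hlt.le
  refine ⟨hmem, ?_⟩
  rw [IsLocalRing.mem_maximalIdeal, mem_nonunits_iff]
  intro hu
  have h0 : (q : Qb) ≠ 0 := Nat.cast_ne_zero.2 hq.out.ne_zero
  have hinv : ((q : Qb))⁻¹ ∈ padicPlace q := by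
    obtain ⟨u, hu⟩ := hu
    have h1 : ((u⁻¹ : (padicPlace q)ˣ) : padicPlace q) * ⟨(q : Qb), hmem⟩ = 1 := by
      rw [← hu]; exact Units.inv_mul u
    have h2 : (((u⁻¹ : (padicPlace q)ˣ) : padicPlace q) : Qb) * (q : Qb) = 1 :=
      congrArg Subtype.val h1
    rw [← eq_inv_of_mul_eq_one_left h2]
    exact Subtype.mem _
  rw [mem_padicPlace_iff_padicAbs, map_inv₀, padicAbs_natCast_self, inv_inv] at hinv
  linarith

section Primes

open ExtCitation

variable (ℓ : Nat.Primes)

theorem primeLocalPlace_liesOverPrime : (primeLocalPlace ℓ).LiesOverPrime (ℓ : ℕ) :=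
  haveI : Fact (ℓ : ℕ).Prime := ⟨ℓ.2⟩
  padicPlace_liesOverPrime (ℓ : ℕ)

theorem primeLocalToGlobal_mem_decompositionSubgroup (τ : primeLocalGaloisGroup ℓ) :
    primeLocalToGlobal ℓ τ ∈ (primeLocalPlace ℓ).decompositionSubgroup ℚ :=
  haveI : Fact (ℓ : ℕ).Prime := ⟨ℓ.2⟩
  localGaloisToGlobal_mem_decompositionSubgroup (ℓ : ℕ) τ

/-- Finite-level surjectivity of `G_{ℚ_ℓ} → D(primeLocalPlace ℓ)`. -/
theorem exists_primeLocalToGlobal_eq_on {σ : GQ}
    (hσ : σ ∈ (primeLocalPlace ℓ).decompositionSubgroup ℚ)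
    (E : IntermediateField ℚ Qb) [FiniteDimensional ℚ E] :
    ∃ τ : primeLocalGaloisGroup ℓ, ∀ x ∈ E, primeLocalToGlobal ℓ τ x = σ x :=
  haveI : Fact (ℓ : ℕ).Prime := ⟨ℓ.2⟩
  exists_localGaloisToGlobal_eq_on (ℓ : ℕ) hσ E

end Primes

end Fermat.Agent.S55
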