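import Fermat.Agent.CFT.PT.Final
import Fermat.Agent.CFT.PT.ShaIdent
import Fermat.Agent.S55.LCBridge

/-!
# S55: the final plug (node D5), in hypothesis form over the three deep inputs

`PT.DeepInputs S p N hN hpN`: for a finite smooth `p`-torsion `ℤ[G_ℚ]`-module `N` with its canonical
resolution `R = zResR N hN`, the existence of invariant maps `invG`, `invL q` with
* `hPG`: global duality (`R.dual1` for `C_S` bijective) — node D7;
* `hPL`: local duality (`dual1` for the restrictions of `R` and `ℚ̄_qˣ` surjective) — node D6;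
* `hG3`: the reciprocity sum formula — node D3c.

`s55_of_deepInputs`: the frozen statement S55 follows from `DeepInputs` for
`N = repZ (M.dualTwist (cycloChar p))`.
-/

set_option autoImplicit false

open CategoryTheory Module groupCohomology ExtCitation

namespace Fermat.Agent.CFT.PT

open Fermat.Agent.CFT Fermat.Agent.S55 HExt LatticePair

attribute [local instance 2000] Rep.hV2

local notation "Qb" => AlgebraicClosure ℚ
local notation "GQ" => (AlgebraicClosure ℚ ≃ₐ[ℚ] AlgebraicClosure ℚ)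

/-- The three deep inputs of the Poitou–Tate argument (global duality, local duality, reciprocity)
for a finite smooth `p`-torsion module `N`, with respect to its canonical resolution. -/
def DeepInputs (S : Finset Nat.Primes) (p : ℕ) [Fact p.Prime] (N : Rep.{0} ℤ GQ) [Finite N]
    (hN : IsSmooth (globalLevel S) N) (hpN : ∀ n : N, p • n = 0) : Prop :=
  ∃ (invG : LC.Hp p (isSmooth_csRep (globalLevel S) Qb (↑S : Set Nat.Primes)) 2 →+ ZMod p)
    (invL : ∀ q : ↥S, LC.Hp p (isSmooth_primeUnitsRep q.1) 2 →+ ZMod p),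
    Function.Bijective
      ((zResR N hN).dual1 p (isSmooth_csRep (globalLevel S) Qb (↑S : Set Nat.Primes)) hpN invG) ∧
    (∀ q : ↥S, Function.Surjective
      (((zResR N hN).res ((levelComap_global S).compat q)).dual1 p (isSmooth_primeUnitsRep q.1)
        (hpN_res (r := fun q : ↥S => primeLocalToGlobal q.1) p hpN q) (invL q))) ∧
    ∀ (z : (LC.cx (isSmooth_jsRep (globalLevel S) Qb (↑S : Set Nat.Primes))).H 2),
      p • z = 0 →
      ∀ (h1 : (LC.cxMap (isSmooth_jsRep (globalLevel S) Qb (↑S : Set Nat.Primes))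
            (isSmooth_csRep (globalLevel S) Qb (↑S : Set Nat.Primes))
            (jsToCsHom (globalLevel S) Qb (↑S : Set Nat.Primes))).mapH 2 z ∈
          LC.Hp p (isSmooth_csRep (globalLevel S) Qb (↑S : Set Nat.Primes)) 2)
        (h2 : ∀ q : ↥S, (LC.locHom (levelComap_global S)
            (isSmooth_jsRep (globalLevel S) Qb (↑S : Set Nat.Primes))
            (fun q : ↥S => isSmooth_primeUnitsRep q.1) (evQ (globalLevel S) S) q).mapH 2 z ∈
          LC.Hp p (isSmooth_primeUnitsRep q.1) 2),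
        invG ⟨_, h1⟩ = ∑ q, invL q ⟨_, h2 q⟩

end Fermat.Agent.CFT.PT

namespace Fermat.Agent.S55

open Fermat.Agent.CFT Fermat.Agent.CFT.PT HExt LatticePair

attribute [local instance 2000] Rep.hV2

local notation "Qb" => AlgebraicClosure ℚ
local notation "GQ" => (AlgebraicClosure ℚ ≃ₐ[ℚ] AlgebraicClosure ℚ)

variable {p : ℕ} [Fact p.Prime] (S : Finset Nat.Primes) (M : Rep (ZMod p) GQ)

/-- `M` itself is smooth for `globalLevel S`. -/
theorem isSmooth_globalLevel_of_hsm_hMur [FiniteDimensional (ZMod p) M] (hpS : pPrime p ∈ S)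
    (hsm : ∀ m : M, ∃ F : IntermediateField ℚ Qb, FiniteDimensional ℚ F ∧
      ∀ s ∈ F.fixingSubgroup, M.ρ s m = m)
    (hMur : ∀ q : Nat.Primes, q ∉ S → ∀ A : ValuationSubring Qb,
      A.LiesOverPrime (q : ℕ) → ∀ g ∈ A.inertiaSubgroupIn ℚ, M.ρ g = 1) :
    IsSmooth (globalLevel S) M := by
  obtain ⟨N, hN, h, -⟩ := exists_level_forall_rho_eq_one S M hpS hsm hMur
  intro a
  refine ⟨N, hN, fun g hg => ?_⟩
  rw [h g hg, Module.End.one_apply]

/-- **S55 from the three deep inputs** (exact frozen conclusion). -/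
theorem s55_of_deepInputs (hp2 : p ≠ 2) (hpS : pPrime p ∈ S) [FiniteDimensional (ZMod p) M]
    (hsm : ∀ m : M, ∃ F : IntermediateField ℚ Qb, FiniteDimensional ℚ F ∧
      ∀ s ∈ F.fixingSubgroup, M.ρ s m = m)
    (hMur : ∀ q : Nat.Primes, q ∉ S → ∀ A : ValuationSubring Qb,
      A.LiesOverPrime (q : ℕ) → ∀ g ∈ A.inertiaSubgroupIn ℚ, M.ρ g = 1)
    (hdeep : ∀ hN : IsSmooth (globalLevel S) (repZ (dualTw p M)),
      DeepInputs S p (repZ (dualTw p M)) hN (nsmul_repZ_eq_zero p (dualTw p M))) :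
    ∃ B : sha₁ S (M.dualTwist (cycloChar p)) →ₗ[ZMod p] sha₂ S M →ₗ[ZMod p] ZMod p,
      (∀ y, (∀ x, B y x = 0) → y = 0) ∧ (∀ x, (∀ y, B y x = 0) → x = 0) := by
  have hM : IsSmooth (globalLevel S) M := isSmooth_globalLevel_of_hsm_hMur S M hpS hsm hMur
  have hN : IsSmooth (globalLevel S) (repZ (dualTw p M)) :=
    isSmooth_globalLevel_dualTwist S M hpS hsm hMur
  obtain ⟨invG, invL, hPG, hPL, hG3⟩ := hdeep hN
  exact s55_of_inputs S M (zResR (repZ (dualTw p M)) hN) (nsmul_repZ_eq_zero p (dualTw p M)) hp2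
    ⟨_, hpS⟩ (shaZ₂EquivKerLoc2 p S hpS M hM hN).symm invG invL hPG hPL hG3

end Fermat.Agent.S55
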