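import Fermat.Agent.CFT.PT.PTInputs
import Fermat.Agent.S55.FinalPlug

/-!
# S55 from `PTInputs` (node D5)

`s55_of_PTInputs`: the frozen statement S55 from the structure `PT.PTInputs p S` packaging the three
deep inputs (global duality D7, local duality D6, reciprocity D3c).  With a term
`I : PTInputs p S` the file `Fermat/Agent/S55.lean` is a one-line plug.
-/

set_option autoImplicit false

open CategoryTheory Module groupCohomology ExtCitation

namespace Fermat.Agent.S55

open Fermat.Agent.CFT Fermat.Agent.CFT.PT HExt LatticePair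

attribute [local instance 2000] Rep.hV2

local notation "Qb" => AlgebraicClosure ℚ
local notation "GQ" => (AlgebraicClosure ℚ ≃ₐ[ℚ] AlgebraicClosure ℚ)

variable {p : ℕ} [Fact p.Prime] (S : Finset Nat.Primes) (M : Rep (ZMod p) GQ)

/-- **S55 from `PTInputs`** (exact frozen conclusion). -/
theorem s55_of_PTInputs (hp2 : p ≠ 2) (hpS : pPrime p ∈ S) [FiniteDimensional (ZMod p) M]
    (hsm : ∀ m : M, ∃ F : IntermediateField ℚ Qb, FiniteDimensional ℚ F ∧
      ∀ s ∈ F.fixingSubgroup, M.ρ s m = m)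
    (hMur : ∀ q : Nat.Primes, q ∉ S → ∀ A : ValuationSubring Qb,
      A.LiesOverPrime (q : ℕ) → ∀ g ∈ A.inertiaSubgroupIn ℚ, M.ρ g = 1)
    (I : PTInputs p S) :
    ∃ B : sha₁ S (M.dualTwist (cycloChar p)) →ₗ[ZMod p] sha₂ S M →ₗ[ZMod p] ZMod p,
      (∀ y, (∀ x, B y x = 0) → y = 0) ∧ (∀ x, (∀ y, B y x = 0) → x = 0) := by
  have hM : IsSmooth (globalLevel S) M := isSmooth_globalLevel_of_hsm_hMur S M hpS hsm hMur
  have hN : IsSmooth (globalLevel S) (repZ (dualTw p M)) :=
    isSmooth_globalLevel_dualTwist S M hpS hsm hMur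
  obtain ⟨e⟩ := ptMain_of I ⟨_, hpS⟩ M (dualTw p M) hN (nsmul_repZ_eq_zero p (dualTw p M))
    (shaZ₂EquivKerLoc2 p S hpS M hM hN).symm
  exact s55_of_shaZ_addEquiv S M hp2 e

end Fermat.Agent.S55
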