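import Fermat.Agent.S55.FinalPTInputs
import Fermat.Agent.CFT.PT.PTInputsQLevels

/-!
# S55 from the finite-level local–global formula `hLG` (D3c)

`s55_of_hLG`: the frozen statement S55 from the single remaining hypothesis `hLG` of
`PTQ.ptInputsQ_of_levels` (helper7's final assembly over `ℚ`).  With `hLG` proved,
`Fermat/Agent/S55.lean` is `s55_of_hLG S M hp2 hpS hsm hMur hLG`.
-/

set_option autoImplicit false

open CategoryTheory Module groupCohomology ExtCitation

namespace Fermat.Agent.S55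

open Fermat.Agent.CFT Fermat.Agent.CFT.PT

local notation "Qb" => AlgebraicClosure ℚ
local notation "GQ" => (AlgebraicClosure ℚ ≃ₐ[ℚ] AlgebraicClosure ℚ)

variable {p : ℕ} [Fact p.Prime] (S : Finset Nat.Primes) (M : Rep (ZMod p) GQ)

/-- **S55 from `hLG`** (exact frozen conclusion). -/
theorem s55_of_hLG (hp2 : p ≠ 2) (hpS : pPrime p ∈ S) [FiniteDimensional (ZMod p) M]
    (hsm : ∀ m : M, ∃ F : IntermediateField ℚ Qb, FiniteDimensional ℚ F ∧
      ∀ s ∈ F.fixingSubgroup, M.ρ s m = m)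
    (hMur : ∀ q : Nat.Primes, q ∉ S → ∀ A : ValuationSubring Qb,
      A.LiesOverPrime (q : ℕ) → ∀ g ∈ A.inertiaSubgroupIn ℚ, M.ρ g = 1)
    (hLG : ∀ (l : (globalLevel S).Level)
      (y : groupCohomology.H2 ((jsRep (globalLevel S) Qb
        (↑S : Set Nat.Primes)).quotientToInvariants l.N)), p • y = 0 →
      PTQ.tGQ S hp2 hpS l ((LC.coeffFinMap (jsToCsFullComp S) l.N 2).hom y) =
        ∑ q : ↥S, locInvLevel q.1 ((levelComap_global S).level q l)
          ((LC.locFin (evQ (globalLevel S) S) q l.N 2).hom y)) :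
    ∃ B : sha₁ S (M.dualTwist (cycloChar p)) →ₗ[ZMod p] sha₂ S M →ₗ[ZMod p] ZMod p,
      (∀ y, (∀ x, B y x = 0) → y = 0) ∧ (∀ x, (∀ y, B y x = 0) → x = 0) :=
  s55_of_PTInputs S M hp2 hpS hsm hMur (PTQ.ptInputsQ_of_levels S hp2 hpS hLG)

end Fermat.Agent.S55
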