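import Fermat.Agent.S55.LCBridge
import Fermat.Agent.CFT.PT.ShaAbstract

/-!
# S55 from the Poitou–Tate sequence (final glue)

`s55_of_PT` takes exactly the hypotheses of `PT.exists_sha_pairing` / `PT.sha_finrank_eq` with
`H² := LC.H2 (globalLevel S) M`, `Hg := LC.H1 (globalLevel S) M'`
(`M' = M.dualTwist (cycloChar p)`), localisation maps `loc₂`, `loc₁` whose kernels are the LC
Tate–Shafarevich groups `shaLC₂ S M`, `shaLC₁ S M'` (e.g. `lcLocTotal₂ S M`, `lcLocTotal₁ S M'`,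
for which the kernel conditions hold by `rfl`), and concludes the frozen statement S55.  All other
objects (`X¹ = Ext¹(M', J_S)`, `Y¹ = Ext¹(M', C_S)`, `X² = Ext²(M', J_S)`,
`L¹ = ∏_v H¹(G_v, M)`, `L² = ∏_v H²(G_v, M)`, `Hloc = ∏_v H¹(G_v, M')`, the comparison maps
and the two duality pairings) are abstract parameters: this pins down what layers A–D must produce.
-/

set_option autoImplicit false

open CategoryTheory Module groupCohomology ExtCitation
open Fermat.Agent.CFT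

namespace Fermat.Agent.S55

local notation "GQ" => (AlgebraicClosure ℚ ≃ₐ[ℚ] AlgebraicClosure ℚ)

variable {p : ℕ} [Fact p.Prime] (S : Finset Nat.Primes) (M : Rep (ZMod p) GQ)

/-- **LC Poitou–Tate, abstract form**: a two-sided nondegenerate pairing between the LC
Tate–Shafarevich groups of `A'` and `A` from the exact sequence and the two duality pairings.
(General coefficient field, arbitrary modules `A`, `A'`.) -/
theorem exists_shaLC_pairing_of_PT {k : Type} [Field k] (A A' : Rep k GQ)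
    {X1 Y1 X2 L1 L2 Hloc : Type*}
    [AddCommGroup X1] [Module k X1] [AddCommGroup Y1] [Module k Y1]
    [AddCommGroup X2] [Module k X2] [AddCommGroup L1] [Module k L1]
    [AddCommGroup L2] [Module k L2] [AddCommGroup Hloc] [Module k Hloc]
    (a : X1 →ₗ[k] Y1) (b : Y1 →ₗ[k] LC.H2 (globalLevel S) A)
    (c : LC.H2 (globalLevel S) A →ₗ[k] X2)
    (hab : Function.Exact a b) (hbc : Function.Exact b c)
    (lam1 : X1 →ₗ[k] L1) (lam2 : X2 →ₗ[k] L2)
    (hlam1 : Function.Surjective lam1) (hlam2 : Function.Injective lam2)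
    (loc2 : LC.H2 (globalLevel S) A →ₗ[k] L2) (hloc2 : ∀ x, lam2 (c x) = loc2 x)
    (hker2 : LinearMap.ker loc2 = shaLC₂ S A)
    (loc1 : LC.H1 (globalLevel S) A' →ₗ[k] Hloc)
    (hker1 : LinearMap.ker loc1 = shaLC₁ S A')
    (pg : Y1 →ₗ[k] LC.H1 (globalLevel S) A' →ₗ[k] k)
    (hpg : Function.Bijective pg)
    (pl : L1 →ₗ[k] Hloc →ₗ[k] k) (hpl : Function.Surjective pl)
    (hcompat : ∀ x y, pg (a x) y = pl (lam1 x) (loc1 y)) :
    ∃ B : shaLC₁ S A' →ₗ[k] shaLC₂ S A →ₗ[k] k,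
      (∀ y, (∀ x, B y x = 0) → y = 0) ∧ (∀ x, (∀ y, B y x = 0) → x = 0) := by
  obtain ⟨B, hB₁, hB₂⟩ := PT.exists_sha_pairing a b c lam1 lam2 loc2 loc1 pg pl hab hbc hlam1
    hlam2 hloc2 hpg hpl hcompat
  exact exists_pairing_of_equiv (LinearEquiv.ofEq _ _ hker1) (LinearEquiv.ofEq _ _ hker2.symm)
    B hB₁ hB₂

/-- **S55 from the Poitou–Tate exact sequence and the two duality pairings.** -/
theorem s55_of_PT (hp2 : p ≠ 2)
    {X1 Y1 X2 L1 L2 Hloc : Type*}
    [AddCommGroup X1] [Module (ZMod p) X1] [AddCommGroup Y1] [Module (ZMod p) Y1]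
    [AddCommGroup X2] [Module (ZMod p) X2] [AddCommGroup L1] [Module (ZMod p) L1]
    [AddCommGroup L2] [Module (ZMod p) L2] [AddCommGroup Hloc] [Module (ZMod p) Hloc]
    (a : X1 →ₗ[ZMod p] Y1) (b : Y1 →ₗ[ZMod p] LC.H2 (globalLevel S) M)
    (c : LC.H2 (globalLevel S) M →ₗ[ZMod p] X2)
    (hab : Function.Exact a b) (hbc : Function.Exact b c)
    (lam1 : X1 →ₗ[ZMod p] L1) (lam2 : X2 →ₗ[ZMod p] L2)
    (hlam1 : Function.Surjective lam1) (hlam2 : Function.Injective lam2)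
    (loc2 : LC.H2 (globalLevel S) M →ₗ[ZMod p] L2) (hloc2 : ∀ x, lam2 (c x) = loc2 x)
    (hker2 : LinearMap.ker loc2 = shaLC₂ S M)
    (loc1 : LC.H1 (globalLevel S) (M.dualTwist (cycloChar p)) →ₗ[ZMod p] Hloc)
    (hker1 : LinearMap.ker loc1 = shaLC₁ S (M.dualTwist (cycloChar p)))
    (pg : Y1 →ₗ[ZMod p] LC.H1 (globalLevel S) (M.dualTwist (cycloChar p)) →ₗ[ZMod p] ZMod p)
    (hpg : Function.Bijective pg)
    (pl : L1 →ₗ[ZMod p] Hloc →ₗ[ZMod p] ZMod p) (hpl : Function.Surjective pl)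
    (hcompat : ∀ x y, pg (a x) y = pl (lam1 x) (loc1 y)) :
    ∃ B : sha₁ S (M.dualTwist (cycloChar p)) →ₗ[ZMod p] sha₂ S M →ₗ[ZMod p] ZMod p,
      (∀ y, (∀ x, B y x = 0) → y = 0) ∧ (∀ x, (∀ y, B y x = 0) → x = 0) := by
  obtain ⟨B, hB₁, hB₂⟩ := exists_shaLC_pairing_of_PT S M (M.dualTwist (cycloChar p)) a b c hab hbc
    lam1 lam2 hlam1 hlam2 loc2 hloc2 hker2 loc1 hker1 pg hpg pl hpl hcompat
  exact s55_of_LC_pairing S M hp2 B hB₁ hB₂

/-- The kernel conditions of `s55_of_PT` hold by definition for the total localisation maps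
`lcLocTotal₂ S M` and `lcLocTotal₁ S M'`. -/
theorem ker_lcLocTotal₂ {k : Type} [Field k] (A : Rep k GQ) :
    LinearMap.ker (lcLocTotal₂ S A) = shaLC₂ S A := rfl

theorem ker_lcLocTotal₁ {k : Type} [Field k] (A : Rep k GQ) :
    LinearMap.ker (lcLocTotal₁ S A) = shaLC₁ S A := rfl

end Fermat.Agent.S55
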