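import Fermat.Agent.S55.PTGlue
import Fermat.Agent.CFT.PT.ShaAbstractAdd

/-!
# S55 from a cardinality equality of the LC Tate–Shafarevich groups

`s55_of_card`: if `shaLC₁ S M'` (`M' = M.dualTwist (cycloChar p)`) is finite and has the same
cardinality as `shaLC₂ S M`, the frozen statement S55 follows.  This is the entry point for the
`ℤ`-linear / additive form of the Poitou–Tate argument (`PT.sha_card_eq`).
-/

set_option autoImplicit false

open CategoryTheory Module groupCohomology ExtCitation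
open Fermat.Agent.CFT

namespace Fermat.Agent.S55

local notation "GQ" => (AlgebraicClosure ℚ ≃ₐ[ℚ] AlgebraicClosure ℚ)

variable {p : ℕ} [Fact p.Prime] (S : Finset Nat.Primes) (M : Rep (ZMod p) GQ)

/-- Two finite `𝔽_p`-vector spaces of the same cardinality have the same dimension. -/
theorem finrank_eq_of_card_eq {V W : Type*} [AddCommGroup V] [Module (ZMod p) V]
    [AddCommGroup W] [Module (ZMod p) W] [Finite V] (h : Nat.card W = Nat.card V) :
    FiniteDimensional (ZMod p) V ∧ FiniteDimensional (ZMod p) W ∧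
      finrank (ZMod p) V = finrank (ZMod p) W := by
  have hp : p.Prime := Fact.out
  have hV : 0 < Nat.card V := Nat.card_pos
  have : Finite W := Nat.finite_of_card_ne_zero (by omega)
  have : Module.Finite (ZMod p) V := Module.Finite.of_finite
  have : Module.Finite (ZMod p) W := Module.Finite.of_finite
  refine ⟨inferInstance, inferInstance, ?_⟩
  rw [Module.natCard_eq_pow_finrank (K := ZMod p) (V := V),
    Module.natCard_eq_pow_finrank (K := ZMod p) (V := W), Nat.card_zmod] at h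
  exact (Nat.pow_right_injective hp.two_le h).symm

/-- **S55 from cardinalities.** -/
theorem s55_of_card (hp2 : p ≠ 2)
    (hfin : Finite (shaLC₁ S (M.dualTwist (cycloChar p))))
    (hcard : Nat.card (shaLC₂ S M) = Nat.card (shaLC₁ S (M.dualTwist (cycloChar p)))) :
    ∃ B : sha₁ S (M.dualTwist (cycloChar p)) →ₗ[ZMod p] sha₂ S M →ₗ[ZMod p] ZMod p,
      (∀ y, (∀ x, B y x = 0) → y = 0) ∧ (∀ x, (∀ y, B y x = 0) → x = 0) := by
  obtain ⟨h1, h2, h⟩ := finrank_eq_of_card_eq (p := p) hcard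
  exact s55_of_LC S M hp2 h1 h2 h

/-- **S55 from the Poitou–Tate sequence, additive form**: the hypotheses of `PT.sha_card_eq` with
`H² := LC.H2 (globalLevel S) M`, `Hg := LC.H1 (globalLevel S) M'`, all maps merely additive and the
remaining groups arbitrary abelian groups. -/
theorem s55_of_PT_add (hp2 : p ≠ 2)
    {X1 Y1 X2 L1 L2 Hloc : Type*}
    [AddCommGroup X1] [AddCommGroup Y1] [AddCommGroup X2] [AddCommGroup L1] [AddCommGroup L2]
    [AddCommGroup Hloc]
    (a : X1 →+ Y1) (b : Y1 →+ LC.H2 (globalLevel S) M) (c : LC.H2 (globalLevel S) M →+ X2)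
    (hab : Function.Exact a b) (hbc : Function.Exact b c)
    (lam1 : X1 →+ L1) (lam2 : X2 →+ L2)
    (hlam1 : Function.Surjective lam1) (hlam2 : Function.Injective lam2)
    (loc2 : LC.H2 (globalLevel S) M →+ L2) (hloc2 : ∀ x, lam2 (c x) = loc2 x)
    (hker2 : ∀ x, loc2 x = 0 ↔ x ∈ shaLC₂ S M)
    (loc1 : LC.H1 (globalLevel S) (M.dualTwist (cycloChar p)) →+ Hloc)
    (hker1 : ∀ y, loc1 y = 0 ↔ y ∈ shaLC₁ S (M.dualTwist (cycloChar p)))
    (hpHloc : ∀ x : Hloc, p • x = 0)
    (pg : Y1 →+ LC.H1 (globalLevel S) (M.dualTwist (cycloChar p)) →+ ZMod p)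
    (hpg : Function.Bijective pg)
    (pl : L1 →+ Hloc →+ ZMod p) (hpl : Function.Surjective pl)
    (hcompat : ∀ x y, pg (a x) y = pl (lam1 x) (loc1 y))
    [Finite (LC.H1 (globalLevel S) (M.dualTwist (cycloChar p)))] :
    ∃ B : sha₁ S (M.dualTwist (cycloChar p)) →ₗ[ZMod p] sha₂ S M →ₗ[ZMod p] ZMod p,
      (∀ y, (∀ x, B y x = 0) → y = 0) ∧ (∀ x, (∀ y, B y x = 0) → x = 0) := by
  have hpHg : ∀ x : LC.H1 (globalLevel S) (M.dualTwist (cycloChar p)), p • x = 0 := fun x => by
    rw [← Nat.cast_smul_eq_nsmul (ZMod p), ZMod.natCast_self, zero_smul]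
  obtain ⟨-, hcard⟩ := PT.sha_card_eq a b c lam1 lam2 loc2 loc1 pg pl hab hbc hlam1 hlam2 hloc2
    hpHg hpHloc hpg hpl hcompat
  have e1 : loc1.ker ≃ shaLC₁ S (M.dualTwist (cycloChar p)) :=
    Equiv.subtypeEquivRight fun y => (AddMonoidHom.mem_ker).trans (hker1 y)
  have e2 : loc2.ker ≃ shaLC₂ S M :=
    Equiv.subtypeEquivRight fun x => (AddMonoidHom.mem_ker).trans (hker2 x)
  have hfin : Finite (shaLC₁ S (M.dualTwist (cycloChar p))) := inferInstance
  refine s55_of_card S M hp2 hfin ?_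
  rw [← Nat.card_congr e1, ← Nat.card_congr e2]
  exact hcard

end Fermat.Agent.S55
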